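import Mathlib
import Fermat.Agent.CFT.Defs

/-!
# T-CFT module FI (FirstInequality), interface (helper29)

Route (no general Herbrand theory, inequalities only), `G = Gal(L/K) = ⟨σ⟩` of order `p`,
`L/K` unramified, `K = ℚ(ζ_p)`:

  `|range ν| ≤ |ker δ| ≤ e₀ |range j|`,  `|range j| |ker j| = |Cl_K|`,  `|ker j| ≥ [ker N : im D] ≥ p e₀`

where `ν : Cl_L → Cl_K` is the norm, `j : Cl_K → Cl_L` the extension, `t` the action of `σ` on
`Cl_L`, `δ = t / 1`, `N`, `D` the norm and `u ↦ σ u / u` on units, `e₀ = [𝓞_Kˣ : N 𝓞_Lˣ]`.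
Hence `p |range ν| ≤ |Cl_K|`, and `normClasses ≤ range ν`.

Slices (each proves one of the `Prop`s below, or constructs `ClassMaps`):
* `UnitIndexIneq p`      (UN, helper29)
* `InvariantIdeal`       (INV)
* `ClassMaps K L σ`      (CM: construct the maps `ν`, `t` with their specs)
* `NormClassesLe`        (C1: `normClasses ≤ range ν`)
* `AmbiguousBound`       (C3)
* `CapitulationBound`    (C4)
* glue: `FirstInequality p` from all of these (helper29).
-/

set_option autoImplicit false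

namespace H29FI

open NumberField
open scoped Pointwise nonZeroDivisors

section defs

variable (K L : Type) [Field K] [NumberField K] [Field L] [NumberField L] [Algebra K L]

/-- The action of `σ ∈ Gal(L/K)` on the units of `𝓞 L`. -/
noncomputable def unitAut (σ : L ≃ₐ[K] L) : (𝓞 L)ˣ →* (𝓞 L)ˣ :=
  Units.map (MulSemiringAction.toRingHom (L ≃ₐ[K] L) (𝓞 L) σ : 𝓞 L →* 𝓞 L)

/-- `D u = σ u / u` on the units of `𝓞 L`. -/
noncomputable def unitD (σ : L ≃ₐ[K] L) : (𝓞 L)ˣ →* (𝓞 L)ˣ :=
  unitAut K L σ / MonoidHom.id _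

/-- The relative norm on units. -/
noncomputable def unitN : (𝓞 L)ˣ →* (𝓞 K)ˣ :=
  Units.map (RingOfIntegers.norm K)

/-- The norm `ν : Cl_L → Cl_K` and the action `t` of `σ` on `Cl_L`, with their specifications on
classes of integral ideals. -/
structure ClassMaps (σ : L ≃ₐ[K] L) where
  /-- the norm on ideal classes -/
  ν : ClassGroup (𝓞 L) →* ClassGroup (𝓞 K)
  /-- the action of `σ` on ideal classes -/
  t : ClassGroup (𝓞 L) →* ClassGroup (𝓞 L)
  ν_mk0 : ∀ (I : (Ideal (𝓞 L))⁰) (J : (Ideal (𝓞 K))⁰), J.1 = Ideal.relNorm (𝓞 K) I.1 →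
    ν (ClassGroup.mk0 I) = ClassGroup.mk0 J
  t_mk0 : ∀ (I I' : (Ideal (𝓞 L))⁰), I'.1 = σ • I.1 →
    t (ClassGroup.mk0 I) = ClassGroup.mk0 I'

end defs

/-- **(UN)** the unit index inequality `p [𝓞_Kˣ : N 𝓞_Lˣ] ≤ [ker N : im D]` (no ramification
hypothesis is needed: only that `K = ℚ(ζ_p)` is totally complex and contains `μ_p`). -/
def UnitIndexIneq (p : ℕ) : Prop :=
  ∀ (K L : Type) [Field K] [NumberField K] [Field L] [NumberField L] [Algebra K L]
    [IsGalois K L] [IsCyclotomicExtension {p} ℚ K],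
    p.Prime → p ≠ 2 → Module.finrank K L = p → ∀ σ : L ≃ₐ[K] L, σ ≠ 1 →
    (unitN K L).range.index ≠ 0 ∧
      p * (unitN K L).range.index ≤ (unitD K L σ).range.relIndex (unitN K L).ker

/-- **(INV)** in an everywhere unramified Galois extension, a nonzero ideal of `𝓞 L` that is
invariant under the Galois group is the extension of an ideal of `𝓞 K`. -/
def InvariantIdeal : Prop :=
  ∀ (K L : Type) [Field K] [NumberField K] [Field L] [NumberField L] [Algebra K L]
    [IsGalois K L], H14CFT.UnramifiedEverywhere K L →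
    ∀ I : Ideal (𝓞 L), I ≠ ⊥ → (∀ σ : L ≃ₐ[K] L, σ • I = I) →
      ∃ J : Ideal (𝓞 K), J.map (algebraMap (𝓞 K) (𝓞 L)) = I

/-- **(C1)** the norm classes are norms of classes. -/
def NormClassesLe (p : ℕ) : Prop :=
  ∀ (K L : Type) [Field K] [NumberField K] [Field L] [NumberField L] [Algebra K L]
    [IsGalois K L], p.Prime → Module.finrank K L = p →
    ∀ (σ : L ≃ₐ[K] L) (cm : ClassMaps K L σ), H14CFT.normClasses K L p ≤ cm.ν.range

/-- **(C3)** ambiguous classes: `[ker δ : range j] ≤ [𝓞_Kˣ : N 𝓞_Lˣ]`, where `δ c = t c / c`. -/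
def AmbiguousBound (p : ℕ) : Prop :=
  ∀ (K L : Type) [Field K] [NumberField K] [Field L] [NumberField L] [Algebra K L]
    [IsGalois K L], p.Prime → Module.finrank K L = p → H14CFT.UnramifiedEverywhere K L →
    ∀ (σ : L ≃ₐ[K] L), σ ≠ 1 → ∀ (cm : ClassMaps K L σ),
      (unitN K L).range.index ≠ 0 →
      (ClassGroup.extendedHom (𝓞 K) (𝓞 L)).range.relIndex (cm.t / MonoidHom.id _).ker ≤
        (unitN K L).range.index

/-- **(C4)** capitulation: `[ker N : im D] ≤ |ker j|`. -/
def CapitulationBound (p : ℕ) : Prop :=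
  ∀ (K L : Type) [Field K] [NumberField K] [Field L] [NumberField L] [Algebra K L]
    [IsGalois K L], p.Prime → Module.finrank K L = p → H14CFT.UnramifiedEverywhere K L →
    ∀ (σ : L ≃ₐ[K] L), σ ≠ 1 →
      (unitD K L σ).range.relIndex (unitN K L).ker ≤
        Nat.card (ClassGroup.extendedHom (𝓞 K) (𝓞 L)).ker

end H29FI
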