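import Mathlib
import Fermat.Agent.CFT.Defs
import Fermat.Agent.CFT.FI.Defs

/-!
# T-CFT module FI, slice C1 (helper26): the norm classes are norms of classes

`normClasses K L p` is generated by the classes of the primes of `K` that split completely in `L`
and by the `p`-th powers.  A prime `P` that splits completely has a prime `Q` over it of inertia
degree one, so `P = N(Q)`; and `d ^ p = N(j d)` since `[L : K] = p`.
-/

set_option autoImplicit false
set_option linter.style.haveILetI false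

namespace H26C1

open NumberField
open scoped Pointwise nonZeroDivisors

variable (K L : Type) [Field K] [NumberField K] [Field L] [NumberField L] [Algebra K L]

/-- A prime that splits completely in a Galois extension has inertia degree one. -/
theorem h26c1_inertiaDeg_eq_one [IsGalois K L] (P : Ideal (𝓞 K)) [P.IsPrime]
    (hsplit : H14CFT.SplitsCompletely K L P) (Q : Ideal (𝓞 L)) [Q.IsPrime] [Q.LiesOver P] :
    Q.inertiaDeg (𝓞 K) = 1 := by
  have h1 := Ideal.ncard_primesOver_mul_ramificationIdxIn_mul_inertiaDegIn P (𝓞 L) (L ≃ₐ[K] L)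
  have h2 : Nat.card (L ≃ₐ[K] L) = Module.finrank K L :=
    IsGaloisGroup.card_eq_finrank (L ≃ₐ[K] L) K L
  rw [H14CFT.SplitsCompletely] at hsplit
  rw [hsplit, h2] at h1
  have hpos : 0 < Module.finrank K L := Module.finrank_pos
  have h3 : P.ramificationIdxIn (𝓞 L) * P.inertiaDegIn (𝓞 L) = 1 := by
    have := Nat.eq_of_mul_eq_mul_left hpos (h1.trans (mul_one _).symm)
    exact this
  have h4 : P.inertiaDegIn (𝓞 L) = 1 := Nat.eq_one_of_mul_eq_one_left h3
  rw [← Ideal.inertiaDegIn_eq_inertiaDeg P Q (L ≃ₐ[K] L), h4]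

/-- A nonzero prime that splits completely is the relative norm of a prime above it. -/
theorem h26c1_exists_relNorm_eq [IsGalois K L] (P : Ideal (𝓞 K)) [P.IsPrime] (hP : P ≠ ⊥)
    (hsplit : H14CFT.SplitsCompletely K L P) :
    ∃ Q : Ideal (𝓞 L), Q ≠ ⊥ ∧ Ideal.relNorm (𝓞 K) Q = P := by
  have hne : (P.primesOver (𝓞 L)).Nonempty := by
    apply Set.nonempty_of_ncard_ne_zero
    rw [hsplit]
    exact (Module.finrank_pos).ne'
  obtain ⟨Q, hQ⟩ := hne
  haveI : Q.IsPrime := hQ.1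
  haveI : Q.LiesOver P := hQ.2
  haveI : P.IsMaximal := Ring.DimensionLEOne.maximalOfPrime hP inferInstance
  have hQ0 : Q ≠ ⊥ := Ideal.ne_bot_of_liesOver_of_ne_bot hP Q
  haveI : Q.IsMaximal := Ring.DimensionLEOne.maximalOfPrime hQ0 inferInstance
  refine ⟨Q, hQ0, ?_⟩
  rw [Ideal.relNorm_eq_pow_of_isMaximal Q P, h26c1_inertiaDeg_eq_one K L P hsplit Q, pow_one]

/-- The relative norm of an extended ideal. -/
theorem h26c1_relNorm_map (J : Ideal (𝓞 K)) :
    Ideal.relNorm (𝓞 K) (J.map (algebraMap (𝓞 K) (𝓞 L))) = J ^ Module.finrank K L := by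
  rw [Ideal.relNorm_algebraMap (𝓞 L) J, IsFractionRing.finrank_eq (𝓞 K) K (𝓞 L) L]

end H26C1

namespace H29FI

open NumberField
open scoped Pointwise nonZeroDivisors

/-- **(C1)** the norm classes are norms of classes. -/
theorem h26c1_normClassesLe (p : ℕ) : NormClassesLe p := by
  intro K L _ _ _ _ _ _ hp hdeg σ cm
  rw [H14CFT.normClasses, Subgroup.closure_le]
  rintro c (⟨P, hPprime, hsplit, rfl⟩ | ⟨d, rfl⟩)
  · haveI := hPprime
    have hP0 : P.1 ≠ ⊥ := fun h => by
      have := P.2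
      rw [h] at this
      exact zero_notMem_nonZeroDivisors this
    obtain ⟨Q, hQ0, hQ⟩ := H26C1.h26c1_exists_relNorm_eq K L P.1 hP0 hsplit
    have hQmem : Q ∈ (Ideal (𝓞 L))⁰ := mem_nonZeroDivisors_of_ne_zero hQ0
    exact ⟨ClassGroup.mk0 ⟨Q, hQmem⟩, cm.ν_mk0 ⟨Q, hQmem⟩ P hQ.symm⟩
  · obtain ⟨J, rfl⟩ := ClassGroup.mk0_surjective d
    have hJ0 : J.1 ≠ ⊥ := fun h => by
      have := J.2
      rw [h] at this
      exact zero_notMem_nonZeroDivisors this
    have hI0 : J.1.map (algebraMap (𝓞 K) (𝓞 L)) ≠ ⊥ := by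
      intro h
      exact hJ0 ((Ideal.map_eq_bot_iff_of_injective
        (FaithfulSMul.algebraMap_injective (𝓞 K) (𝓞 L))).mp h)
    have hImem : J.1.map (algebraMap (𝓞 K) (𝓞 L)) ∈ (Ideal (𝓞 L))⁰ :=
      mem_nonZeroDivisors_of_ne_zero hI0
    refine ⟨ClassGroup.mk0 ⟨_, hImem⟩, ?_⟩
    have h1 := cm.ν_mk0 ⟨_, hImem⟩ (J ^ p) (by
      rw [H26C1.h26c1_relNorm_map K L J.1, hdeg]
      rfl)
    show cm.ν (ClassGroup.mk0 ⟨_, hImem⟩) = (ClassGroup.mk0 J) ^ p
    rw [h1, map_pow]
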