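import Fermat.Agent.CFT.FI.Defs

/-!
# T-CFT module FI: the final counting (helper29)

`h29fi_glue`: `UnitIndexIneq p`, `NormClassesLe p`, `AmbiguousBound p`, `CapitulationBound p`
and the existence of `ClassMaps` imply `H14CFT.FirstInequality p`.
-/

set_option autoImplicit false
set_option linter.unusedSectionVars false

namespace H29FI

open NumberField
open scoped Pointwise nonZeroDivisors

section glue

variable {K L : Type} [Field K] [NumberField K] [Field L] [NumberField L] [Algebra K L]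

theorem h29fi_smul_ne_bot (σ : L ≃ₐ[K] L) {I : Ideal (𝓞 L)} (hI : I ≠ ⊥) : σ • I ≠ ⊥ := by
  intro h
  apply hI
  have := congrArg (fun J : Ideal (𝓞 L) => σ⁻¹ • J) h
  simpa using this

theorem h29fi_smul_map (σ : L ≃ₐ[K] L) (J : Ideal (𝓞 K)) :
    σ • (J.map (algebraMap (𝓞 K) (𝓞 L))) = J.map (algebraMap (𝓞 K) (𝓞 L)) := by
  rw [Ideal.pointwise_smul_def, Ideal.map_map]
  congr 1
  ext x
  show σ (algebraMap K L (x : K)) = algebraMap K L (x : K)
  exact σ.commutes _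

/-- the Galois action commutes with the `𝓞 K`-action. -/
theorem h29fi_smulCommClass : SMulCommClass (L ≃ₐ[K] L) (𝓞 K) (𝓞 L) :=
  ⟨fun σ r x => by
    apply RingOfIntegers.ext
    show σ (((r • x : 𝓞 L) : L)) = (((r • (σ • x) : 𝓞 L)) : L)
    rw [Algebra.smul_def, Algebra.smul_def]
    show σ (algebraMap K L (r : K) * (x : L)) = algebraMap K L (r : K) * σ (x : L)
    rw [map_mul, σ.commutes]⟩

/-- `ν ∘ t = ν`. -/
theorem h29fi_nu_t (σ : L ≃ₐ[K] L) (cm : ClassMaps K L σ) (c : ClassGroup (𝓞 L)) :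
    cm.ν (cm.t c) = cm.ν c := by
  obtain ⟨I, rfl⟩ := ClassGroup.mk0_surjective c
  have := h29fi_smulCommClass (K := K) (L := L)
  have hI : I.1 ≠ ⊥ := mem_nonZeroDivisors_iff_ne_zero.mp I.2
  let I' : (Ideal (𝓞 L))⁰ := ⟨σ • I.1, mem_nonZeroDivisors_iff_ne_zero.mpr (h29fi_smul_ne_bot σ hI)⟩
  let J : (Ideal (𝓞 K))⁰ := ⟨Ideal.relNorm (𝓞 K) I.1,
    mem_nonZeroDivisors_iff_ne_zero.mpr (fun h => hI (Ideal.relNorm_eq_bot_iff.mp h))⟩
  rw [cm.t_mk0 I I' rfl, cm.ν_mk0 I' J (Ideal.relNorm_smul (𝓞 K) σ I.1).symm, cm.ν_mk0 I J rfl]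

/-- `t ∘ j = j`. -/
theorem h29fi_t_j (σ : L ≃ₐ[K] L) (cm : ClassMaps K L σ) (c : ClassGroup (𝓞 K)) :
    cm.t (ClassGroup.extendedHom (𝓞 K) (𝓞 L) c) = ClassGroup.extendedHom (𝓞 K) (𝓞 L) c := by
  obtain ⟨I, rfl⟩ := ClassGroup.mk0_surjective c
  rw [ClassGroup.extendedHom_mk0]
  exact cm.t_mk0 _ _ (h29fi_smul_map σ I.1).symm

end glue

/-- pure counting -/
theorem h29fi_count {C Cl : Type*} [CommGroup C] [CommGroup Cl] [Finite C] [Finite Cl]
    (ν : C →* Cl) (t : C →* C) (j : Cl →* C) (p e0 rD : ℕ)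
    (hνt : ∀ c, ν (t c) = ν c) (htj : ∀ c, t (j c) = j c)
    (_he0 : e0 ≠ 0) (hUN : p * e0 ≤ rD) (hC4 : rD ≤ Nat.card j.ker)
    (hC3 : j.range.relIndex (t / MonoidHom.id C).ker ≤ e0) :
    p * Nat.card ν.range ≤ Nat.card Cl := by
  set δ : C →* C := t / MonoidHom.id C with hδ
  have hδapp : ∀ c, δ c = t c / c := fun c => rfl
  -- `range δ ≤ ker ν`
  have h1 : δ.range ≤ ν.ker := by
    rintro _ ⟨c, rfl⟩
    rw [MonoidHom.mem_ker, hδapp, map_div, hνt, div_self']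
  -- `|range ν| ∣ |ker δ|`
  have h2 : Nat.card ν.range ∣ Nat.card δ.ker := by
    rw [← Subgroup.index_ker, ← Subgroup.index_range]
    exact Subgroup.index_dvd_of_le h1
  have h2' : Nat.card ν.range ≤ Nat.card δ.ker :=
    Nat.le_of_dvd Nat.card_pos h2
  -- `range j ≤ ker δ`
  have h3 : j.range ≤ δ.ker := by
    rintro _ ⟨c, rfl⟩
    rw [MonoidHom.mem_ker, hδapp, htj, div_self']
  have h4 : Nat.card j.range * j.range.relIndex δ.ker = Nat.card δ.ker := by
    have := Subgroup.relIndex_mul_relIndex ⊥ j.range δ.ker bot_le h3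
    rwa [Subgroup.relIndex_bot_left, Subgroup.relIndex_bot_left] at this
  have h5 : Nat.card j.ker * Nat.card j.range = Nat.card Cl := by
    rw [← Subgroup.index_ker]
    exact Subgroup.card_mul_index j.ker
  calc p * Nat.card ν.range ≤ p * Nat.card δ.ker := Nat.mul_le_mul_left _ h2'
    _ = p * (Nat.card j.range * j.range.relIndex δ.ker) := by rw [h4]
    _ ≤ p * (Nat.card j.range * e0) := by gcongr
    _ = (p * e0) * Nat.card j.range := by ring
    _ ≤ Nat.card j.ker * Nat.card j.range := by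
        exact Nat.mul_le_mul_right _ (hUN.trans hC4)
    _ = Nat.card Cl := h5

/-- **(FI) First inequality** from the slices. -/
theorem h29fi_glue (p : ℕ) (hUN : UnitIndexIneq p) (hC1 : NormClassesLe p)
    (hC3 : AmbiguousBound p) (hC4 : CapitulationBound p)
    (hcm : ∀ (K L : Type) [Field K] [NumberField K] [Field L] [NumberField L] [Algebra K L]
      (σ : L ≃ₐ[K] L), Nonempty (ClassMaps K L σ)) :
    H14CFT.FirstInequality p := by
  intro K L _ _ _ _ _ _ _ hp hp2 hdeg hunr htop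
  classical
  have hcard : Nat.card (L ≃ₐ[K] L) = p := by
    rw [IsGalois.card_aut_eq_finrank, hdeg]
  have : Nontrivial (L ≃ₐ[K] L) := by
    have : 1 < Nat.card (L ≃ₐ[K] L) := hcard ▸ hp.one_lt
    exact (Finite.one_lt_card_iff_nontrivial).mp this
  obtain ⟨σ, hσ⟩ := exists_ne (1 : L ≃ₐ[K] L)
  obtain ⟨cm⟩ := hcm K L σ
  obtain ⟨he0, hun⟩ := hUN K L hp hp2 hdeg σ hσ
  have h3 := hC3 K L hp hdeg hunr σ hσ cm he0
  have h4 := hC4 K L hp hdeg hunr σ hσ
  have h1 := hC1 K L hp hdeg σ cm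
  have hcount := h29fi_count cm.ν cm.t (ClassGroup.extendedHom (𝓞 K) (𝓞 L)) p
    (unitN K L).range.index ((unitD K L σ).range.relIndex (unitN K L).ker)
    (h29fi_nu_t σ cm) (h29fi_t_j σ cm) he0 hun h4 h3
  have htop' : cm.ν.range = ⊤ := top_le_iff.mp (htop ▸ h1)
  rw [htop', Subgroup.card_top] at hcount
  have hpos : 0 < Nat.card (ClassGroup (𝓞 K)) := Nat.card_pos
  have h2 : 2 ≤ p := hp.two_le
  nlinarith

end H29FI
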