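import Fermat.Agent.CFT.FI.Defs
import Fermat.Agent.CFT.FI.Glue

/-!
# T-CFT module FI, slice C3 (helper29): the ambiguous class bound

`h29c3_ambiguousBound : InvariantIdeal → AmbiguousBound p`:
`[ker δ : range j] ≤ [𝓞_Kˣ : N 𝓞_Lˣ]`.
-/

set_option autoImplicit false
set_option linter.unusedSectionVars false

namespace H29FI

open NumberField
open scoped Pointwise nonZeroDivisors

section general

/-- counting lemma: a map `θ : K → E` separating the cosets of `H` bounds the relative index. -/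
theorem h29c3_relIndex_le {G : Type*} [Group G] (H K : Subgroup G) {E : Type*} [Finite E]
    (θ : K → E) (hθ : ∀ a b : K, θ a = θ b → (a : G)⁻¹ * (b : G) ∈ H) :
    H.relIndex K ≤ Nat.card E := by
  rw [Subgroup.relIndex, Subgroup.index_eq_card]
  refine Nat.card_le_card_of_injective (fun q => θ q.out) ?_
  intro q q' h
  have h1 := hθ _ _ h
  rw [← QuotientGroup.out_eq' q, ← QuotientGroup.out_eq' q']
  rw [QuotientGroup.eq]
  exact h1

end general

section c3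

variable {K L : Type} [Field K] [NumberField K] [Field L] [NumberField L] [Algebra K L]

theorem h29c3_intNorm_eq (x : 𝓞 L) :
    Algebra.intNorm (𝓞 K) (𝓞 L) x = RingOfIntegers.norm K x := by
  apply RingOfIntegers.ext
  exact (Algebra.algebraMap_intNorm (A := 𝓞 K) (K := K) (L := L) (B := 𝓞 L) x).trans
    (RingOfIntegers.coe_norm K x).symm

theorem h29c3_relNorm_span (x : 𝓞 L) :
    Ideal.relNorm (𝓞 K) (Ideal.span {x}) = Ideal.span {RingOfIntegers.norm K x} := by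
  rw [Ideal.relNorm_singleton, h29c3_intNorm_eq]

theorem h29c3_smul_span (σ : L ≃ₐ[K] L) (x : 𝓞 L) :
    σ • (Ideal.span {x} : Ideal (𝓞 L)) = Ideal.span {σ • x} := by
  rw [Ideal.pointwise_smul_def, Ideal.map_span, Set.image_singleton]
  rfl

theorem h29c3_norm_smul (σ : L ≃ₐ[K] L) (x : 𝓞 L) :
    RingOfIntegers.norm K (σ • x) = RingOfIntegers.norm K x := by
  apply RingOfIntegers.ext
  rw [RingOfIntegers.coe_norm, RingOfIntegers.coe_norm]
  exact Algebra.norm_eq_of_algEquiv σ (x : L)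

/-- the ambiguity relation: `(x) σI = (y) I` with `N y = ε N x`. -/
def h29c3_IsAmb (σ : L ≃ₐ[K] L) (I : Ideal (𝓞 L)) (ε : (𝓞 K)ˣ) : Prop :=
  ∃ x y : 𝓞 L, x ≠ 0 ∧ y ≠ 0 ∧ Ideal.span {x} * (σ • I) = Ideal.span {y} * I ∧
    RingOfIntegers.norm K y = (ε : 𝓞 K) * RingOfIntegers.norm K x

theorem h29c3_exists_amb (σ : L ≃ₐ[K] L) (cm : ClassMaps K L σ) (I : (Ideal (𝓞 L))⁰)
    (h : cm.t (ClassGroup.mk0 I) = ClassGroup.mk0 I) : ∃ ε, h29c3_IsAmb σ I.1 ε := by
  have hI : I.1 ≠ ⊥ := mem_nonZeroDivisors_iff_ne_zero.mp I.2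
  let I' : (Ideal (𝓞 L))⁰ := ⟨σ • I.1, mem_nonZeroDivisors_iff_ne_zero.mpr (h29fi_smul_ne_bot σ hI)⟩
  rw [cm.t_mk0 I I' rfl, ClassGroup.mk0_eq_mk0_iff] at h
  obtain ⟨x, y, hx, hy, hxy⟩ := h
  have := h29fi_smulCommClass (K := K) (L := L)
  have hn := congrArg (Ideal.relNorm (𝓞 K)) hxy
  rw [map_mul, map_mul, h29c3_relNorm_span, h29c3_relNorm_span] at hn
  have hI'n : Ideal.relNorm (𝓞 K) I'.1 = Ideal.relNorm (𝓞 K) I.1 := Ideal.relNorm_smul (𝓞 K) σ I.1
  rw [hI'n] at hn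
  have hne : Ideal.relNorm (𝓞 K) I.1 ≠ 0 := fun h0 => hI (Ideal.relNorm_eq_bot_iff.mp h0)
  have hspan := mul_right_cancel₀ hne hn
  rw [Ideal.span_singleton_eq_span_singleton] at hspan
  obtain ⟨ε, hε⟩ := hspan
  exact ⟨ε, x, y, hx, hy, hxy, by rw [← hε, mul_comm]⟩

section galois

variable [IsGalois K L]

theorem h29c3_zpowers_top {p : ℕ} (hp : p.Prime) (hdeg : Module.finrank K L = p)
    (σ : L ≃ₐ[K] L) (hσ : σ ≠ 1) (τ : L ≃ₐ[K] L) : τ ∈ Subgroup.zpowers σ := by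
  have hcard : Nat.card (L ≃ₐ[K] L) = p := by
    rw [IsGalois.card_aut_eq_finrank, hdeg]
  have hord : orderOf σ = p := by
    have h1 : orderOf σ ∣ p := hcard ▸ orderOf_dvd_natCard σ
    rcases (Nat.dvd_prime hp).mp h1 with h | h
    · exact absurd (orderOf_eq_one_iff.mp h) hσ
    · exact h
  have : Subgroup.zpowers σ = ⊤ := by
    apply Subgroup.eq_top_of_card_eq
    rw [Nat.card_zpowers, hord, hcard]
  rw [this]; trivial

/-- an ideal fixed by a generator is fixed by the Galois group -/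
theorem h29c3_smul_all {p : ℕ} (hp : p.Prime) (hdeg : Module.finrank K L = p)
    (σ : L ≃ₐ[K] L) (hσ : σ ≠ 1) (A : Ideal (𝓞 L)) (hA : σ • A = A) (τ : L ≃ₐ[K] L) :
    τ • A = A := by
  classical
  have hpow : ∀ n : ℕ, σ ^ n • A = A := by
    intro n
    induction n with
    | zero => simp
    | succ n ih => rw [pow_succ, mul_smul, hA, ih]
  have hmem := h29c3_zpowers_top hp hdeg σ hσ τ
  have hmem' := mem_zpowers_iff_mem_range_orderOf.mp hmem
  obtain ⟨i, _, hi⟩ := Finset.mem_image.mp hmem'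
  rw [← hi]
  exact hpow i

/-- **Hilbert 90**, integral form: if `N Y = N (u X)` with `X ≠ 0` (hence `Y ≠ 0`), there is
`b ≠ 0` in `𝓞 L` with `b u X = Y σ(b)`. -/
theorem h29c3_hilbert90 {p : ℕ} (hp : p.Prime) (hdeg : Module.finrank K L = p)
    (σ : L ≃ₐ[K] L) (hσ : σ ≠ 1) (X Y : 𝓞 L) (hX : X ≠ 0)
    (hN : RingOfIntegers.norm K Y = RingOfIntegers.norm K X) :
    ∃ b : 𝓞 L, b ≠ 0 ∧ b * X = Y * σ • b := by
  classical
  have hcard : Nat.card (L ≃ₐ[K] L) = p := by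
    rw [IsGalois.card_aut_eq_finrank, hdeg]
  have : Fact p.Prime := ⟨hp⟩
  have : IsCyclic (L ≃ₐ[K] L) := isCyclic_of_prime_card hcard
  have hXL : (X : L) ≠ 0 := by
    intro h
    apply hX
    apply RingOfIntegers.ext
    rw [h]; rfl
  have hnorm : Algebra.norm K ((Y : L) / (X : L)) = 1 := by
    have h1 : (Y : L) / (X : L) * (X : L) = (Y : L) := div_mul_cancel₀ _ hXL
    have h2 := congrArg (Algebra.norm K) h1
    rw [map_mul, ← RingOfIntegers.coe_norm K Y, ← RingOfIntegers.coe_norm K X, hN] at h2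
    have h3 : ((RingOfIntegers.norm K X : 𝓞 K) : K) ≠ 0 := by
      rw [RingOfIntegers.coe_norm]
      exact Algebra.norm_ne_zero_iff.mpr hXL
    exact mul_right_cancel₀ h3 (h2.trans (one_mul _).symm)
  obtain ⟨b, hb⟩ := groupCohomology.exists_div_of_norm_eq_one
    (g := σ) (h29c3_zpowers_top hp hdeg σ hσ) hnorm
  -- clear denominators
  obtain ⟨x, y, hy, hxy⟩ := IsFractionRing.div_surjective (𝓞 L) (b : L)
  have hy0 : y ≠ 0 := nonZeroDivisors.ne_zero hy
  obtain ⟨c, hc⟩ := RingOfIntegers.dvd_norm K y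
  have hyL : (algebraMap (𝓞 L) L y) ≠ 0 := by
    intro h
    exact hy0 ((map_eq_zero_iff _ (FaithfulSMul.algebraMap_injective (𝓞 L) L)).mp h)
  have hbL : (b : L) ≠ 0 := b.ne_zero
  -- `m = y c` is fixed by `σ`
  set m : 𝓞 L := algebraMap (𝓞 K) (𝓞 L) (RingOfIntegers.norm K y) with hm
  have hm0 : m ≠ 0 := by
    rw [hm]
    intro h
    have h1 := (map_eq_zero_iff _ (FaithfulSMul.algebraMap_injective (𝓞 K) (𝓞 L))).mp h
    have h2 : (RingOfIntegers.norm K y : K) = 0 := by rw [h1]; rfl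
    rw [RingOfIntegers.coe_norm] at h2
    exact (Algebra.norm_ne_zero_iff.mpr hyL) h2
  have hc0 : c ≠ 0 := by
    rintro rfl
    rw [mul_zero] at hc
    exact hm0 hc
  have hσm : σ ((m : 𝓞 L) : L) = ((m : 𝓞 L) : L) := by
    show σ (algebraMap K L ((RingOfIntegers.norm K y : 𝓞 K) : K)) = _
    rw [σ.commutes]
    rfl
  -- `b₀ = x c`, with `b₀ = b m` in `L`
  have hb0 : ((x * c : 𝓞 L) : L) = (b : L) * ((m : 𝓞 L) : L) := by
    have h1 : ((m : 𝓞 L) : L) = (y : L) * (c : L) := by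
      rw [hc]; rfl
    rw [h1, ← hxy]
    show (x : L) * (c : L) = algebraMap (𝓞 L) L x / algebraMap (𝓞 L) L y * ((y : L) * (c : L))
    have : algebraMap (𝓞 L) L y = (y : L) := rfl
    rw [this] at hyL ⊢
    have : algebraMap (𝓞 L) L x = (x : L) := rfl
    rw [this]
    field_simp
  have hx0 : x ≠ 0 := by
    rintro rfl
    rw [zero_mul] at hb0
    have : (b : L) * ((m : 𝓞 L) : L) = 0 := hb0.symm
    rcases mul_eq_zero.mp this with h | h
    · exact hbL h
    · apply hm0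
      apply RingOfIntegers.ext
      rw [h]; rfl
  refine ⟨x * c, mul_ne_zero hx0 hc0, ?_⟩
  apply RingOfIntegers.ext
  show ((x * c : 𝓞 L) : L) * (X : L) = (Y : L) * σ ((x * c : 𝓞 L) : L)
  rw [hb0, map_mul, hσm]
  have hmL : ((m : 𝓞 L) : L) ≠ 0 := by
    intro h
    apply hm0
    apply RingOfIntegers.ext
    rw [h]; rfl
  have hσb : σ (b : L) ≠ 0 := by
    rw [Ne, map_eq_zero_iff σ σ.injective]
    exact hbL
  have hb' : (b : L) / σ (b : L) = (Y : L) / (X : L) := hb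
  field_simp at hb'
  linear_combination ((m : 𝓞 L) : L) * hb'

/-- key step: two ambiguous ideals with the same unit class differ by an extended class. -/
theorem h29c3_key (hINV : InvariantIdeal) (hunr : H14CFT.UnramifiedEverywhere K L) {p : ℕ}
    (hp : p.Prime) (hdeg : Module.finrank K L = p) (σ : L ≃ₐ[K] L) (hσ : σ ≠ 1)
    (I I' : (Ideal (𝓞 L))⁰) (ε ε' : (𝓞 K)ˣ) (hI : h29c3_IsAmb σ I.1 ε)
    (hI' : h29c3_IsAmb σ I'.1 ε') (u : (𝓞 L)ˣ) (hu : ε = ε' * unitN K L u) :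
    (ClassGroup.mk0 I')⁻¹ * ClassGroup.mk0 I ∈ (ClassGroup.extendedHom (𝓞 K) (𝓞 L)).range := by
  classical
  obtain ⟨I'', hI''⟩ := ClassGroup.mk0_surjective (ClassGroup.mk0 I')⁻¹
  have hprinc : ClassGroup.mk0 (I' * I'') = 1 := by
    rw [map_mul, hI'', mul_inv_cancel]
  have hprinc' : (I'.1 * I''.1).IsPrincipal := (ClassGroup.mk0_eq_one_iff (I' * I'').2).mp hprinc
  obtain ⟨d, hd⟩ := hprinc'.principal
  have hd' : I'.1 * I''.1 = Ideal.span {d} := hd
  have hI0 : I.1 ≠ ⊥ := mem_nonZeroDivisors_iff_ne_zero.mp I.2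
  have hI'0 : I'.1 ≠ ⊥ := mem_nonZeroDivisors_iff_ne_zero.mp I'.2
  have hI''0 : I''.1 ≠ ⊥ := mem_nonZeroDivisors_iff_ne_zero.mp I''.2
  have hd0 : d ≠ 0 := by
    rintro rfl
    rw [Ideal.span_singleton_eq_bot.mpr rfl] at hd'
    exact (mul_ne_zero hI'0 hI''0) hd'
  obtain ⟨x, y, hx, hy, hxy, hnxy⟩ := hI
  obtain ⟨x', y', hx', hy', hxy', hnxy'⟩ := hI'
  -- the relation for `B = I I''`
  have hσd : σ • I'.1 * σ • I''.1 = Ideal.span {σ • d} := by
    rw [← smul_mul', hd', h29c3_smul_span]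
  obtain ⟨X, hXdef⟩ : ∃ X : 𝓞 L, X = x * y' * d := ⟨_, rfl⟩
  obtain ⟨Y, hYdef⟩ : ∃ Y : 𝓞 L, Y = y * x' * σ • d := ⟨_, rfl⟩
  have hσd0 : σ • d ≠ 0 := by
    intro h0
    apply hd0
    have := congrArg (fun z : 𝓞 L => σ⁻¹ • z) h0
    simpa using this
  have hX0 : X ≠ 0 := by rw [hXdef]; exact mul_ne_zero (mul_ne_zero hx hy') hd0
  have hXY : Ideal.span {X} * (σ • (I.1 * I''.1)) = Ideal.span {Y} * (I.1 * I''.1) := by
    rw [smul_mul', hXdef, hYdef, ← Ideal.span_singleton_mul_span_singleton,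
      ← Ideal.span_singleton_mul_span_singleton, ← Ideal.span_singleton_mul_span_singleton,
      ← Ideal.span_singleton_mul_span_singleton, ← hd', ← hσd]
    calc Ideal.span {x} * Ideal.span {y'} * (I'.1 * I''.1) * (σ • I.1 * σ • I''.1)
        = (Ideal.span {x} * σ • I.1) * (Ideal.span {y'} * I'.1) * (I''.1 * σ • I''.1) := by ring
      _ = (Ideal.span {y} * I.1) * (Ideal.span {x'} * σ • I'.1) * (I''.1 * σ • I''.1) := by
          rw [hxy, hxy']
      _ = Ideal.span {y} * Ideal.span {x'} * (σ • I'.1 * σ • I''.1) * (I.1 * I''.1) := by ring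
  -- norms
  have hnorm : RingOfIntegers.norm K Y = RingOfIntegers.norm K ((u : 𝓞 L) * X) := by
    have hu' : (ε : 𝓞 K) = (ε' : 𝓞 K) * RingOfIntegers.norm K (u : 𝓞 L) := by
      rw [hu]; rfl
    rw [hYdef, hXdef, map_mul, map_mul, map_mul, map_mul, map_mul, h29c3_norm_smul, hnxy, hnxy',
      hu']
    ring
  obtain ⟨b, hb0, hb⟩ := h29c3_hilbert90 hp hdeg σ hσ ((u : 𝓞 L) * X) Y
    (mul_ne_zero u.ne_zero hX0) hnorm
  -- the invariant ideal
  obtain ⟨A, hAdef⟩ : ∃ A : Ideal (𝓞 L), A = Ideal.span {b} * (I.1 * I''.1) := ⟨_, rfl⟩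
  have hB0 : I.1 * I''.1 ≠ ⊥ := mul_ne_zero hI0 hI''0
  have hbs0 : (Ideal.span {b} : Ideal (𝓞 L)) ≠ ⊥ := by
    intro h
    exact hb0 (Ideal.span_singleton_eq_bot.mp h)
  have hA0 : A ≠ ⊥ := by rw [hAdef]; exact mul_ne_zero hbs0 hB0
  have hA : σ • A = A := by
    rw [hAdef, smul_mul', h29c3_smul_span]
    apply (Ideal.span_singleton_mul_right_inj hX0).mp
    calc Ideal.span {X} * (Ideal.span {σ • b} * σ • (I.1 * I''.1))
        = Ideal.span {σ • b} * (Ideal.span {X} * σ • (I.1 * I''.1)) := by ring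
      _ = Ideal.span {σ • b} * (Ideal.span {Y} * (I.1 * I''.1)) := by rw [hXY]
      _ = Ideal.span {Y * σ • b} * (I.1 * I''.1) := by
          rw [show Ideal.span {Y * σ • b} = Ideal.span {Y} * Ideal.span {σ • b} from
            (Ideal.span_singleton_mul_span_singleton _ _).symm]
          ring
      _ = Ideal.span {b * X * (u : 𝓞 L)} * (I.1 * I''.1) := by
          rw [← hb]; congr 2; ring_nf
      _ = Ideal.span {b * X} * (I.1 * I''.1) := by
          rw [Ideal.span_singleton_mul_right_unit u.isUnit]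
      _ = Ideal.span {X} * (Ideal.span {b} * (I.1 * I''.1)) := by
          rw [show Ideal.span {b * X} = Ideal.span {b} * Ideal.span {X} from
            (Ideal.span_singleton_mul_span_singleton _ _).symm]
          ring
  have hall := h29c3_smul_all hp hdeg σ hσ A hA
  obtain ⟨J, hJ⟩ := hINV K L hunr A hA0 hall
  have hJ0 : J ≠ ⊥ := by
    rintro rfl
    rw [Ideal.map_bot] at hJ
    exact hA0 hJ.symm
  refine ⟨ClassGroup.mk0 ⟨J, mem_nonZeroDivisors_iff_ne_zero.mpr hJ0⟩, ?_⟩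
  rw [ClassGroup.extendedHom_mk0]
  have hbmem : Ideal.span {b} ∈ (Ideal (𝓞 L))⁰ :=
    mem_nonZeroDivisors_iff_ne_zero.mpr hbs0
  have hb1 : ClassGroup.mk0 (⟨Ideal.span {b}, hbmem⟩ : (Ideal (𝓞 L))⁰) = 1 :=
    (ClassGroup.mk0_eq_one_iff hbmem).mpr ⟨⟨b, rfl⟩⟩
  have hfin : ClassGroup.extendedIdeal (𝓞 K) (𝓞 L) ⟨J, mem_nonZeroDivisors_iff_ne_zero.mpr hJ0⟩ =
      (⟨Ideal.span {b}, hbmem⟩ : (Ideal (𝓞 L))⁰) * (I * I'') := by
    apply Subtype.ext
    show J.map (algebraMap (𝓞 K) (𝓞 L)) = Ideal.span {b} * (I.1 * I''.1)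
    rw [hJ, hAdef]
  rw [hfin, map_mul, map_mul, hb1, one_mul, hI'', mul_comm]

/-- **(C3)** the ambiguous class bound. -/
theorem h29c3_ambiguousBound (p : ℕ) (hINV : InvariantIdeal) : AmbiguousBound p := by
  intro K L _ _ _ _ _ _ hp hdeg hunr σ hσ cm he0
  classical
  have hFI : (unitN K L).range.FiniteIndex := ⟨he0⟩
  have hfin : Finite ((𝓞 K)ˣ ⧸ (unitN K L).range) :=
    Subgroup.finite_quotient_of_finiteIndex
  rw [Subgroup.index_eq_card]
  -- the data attached to an ambiguous class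
  have hdata : ∀ c : (cm.t / MonoidHom.id _).ker,
      ∃ (I : (Ideal (𝓞 L))⁰) (ε : (𝓞 K)ˣ), ClassGroup.mk0 I = c.1 ∧ h29c3_IsAmb σ I.1 ε := by
    intro c
    obtain ⟨I, hI⟩ := ClassGroup.mk0_surjective c.1
    have hc : cm.t c.1 / c.1 = 1 := c.2
    have hc' : cm.t (ClassGroup.mk0 I) = ClassGroup.mk0 I := by
      rw [hI]; exact div_eq_one.mp hc
    obtain ⟨ε, hε⟩ := h29c3_exists_amb σ cm I hc'
    exact ⟨I, ε, hI, hε⟩
  choose I ε hI hε using hdata
  refine h29c3_relIndex_le _ _ (fun c => (QuotientGroup.mk (ε c) : (𝓞 K)ˣ ⧸ (unitN K L).range)) ?_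
  intro a b hab
  rw [QuotientGroup.eq] at hab
  obtain ⟨u, hu⟩ := hab
  have hu' : ε b = ε a * unitN K L u := by
    rw [hu]; group
  have := h29c3_key hINV hunr hp hdeg σ hσ (I b) (I a) (ε b) (ε a) (hε b) (hε a) u hu'
  rw [hI, hI] at this
  exact this

end galois

end c3

end H29FI
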