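import Mathlib
import Fermat.Agent.CFT.FI.Defs

/-!
# T-CFT, module FI, slice INV (helper8)

In an everywhere unramified Galois extension `L/K` of number fields, a nonzero ideal of `𝓞 L`
which is invariant under the Galois group is the extension of an ideal of `𝓞 K`.
-/

set_option autoImplicit false

namespace H8INV

open NumberField
open scoped Pointwise nonZeroDivisors

variable {K L : Type} [Field K] [NumberField K] [Field L] [NumberField L] [Algebra K L]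
  [IsGalois K L]

/-- trivial inertia (as a subgroup) from `UnramifiedEverywhere` -/
lemma h8inv_inertia_eq_bot (hunr : H14CFT.UnramifiedEverywhere K L) (Q : Ideal (𝓞 L))
    [Q.IsPrime] (hQ : Q ≠ ⊥) : Q.inertia (L ≃ₐ[K] L) = ⊥ := by
  rw [eq_bot_iff]
  intro σ hσ
  rw [Subgroup.mem_bot]
  exact hunr Q inferInstance hQ σ (fun x => hσ x)

/-- unramified: `e = 1` -/
lemma h8inv_ramificationIdx_eq_one (hunr : H14CFT.UnramifiedEverywhere K L) (Q : Ideal (𝓞 L))
    [Q.IsPrime] (hQ : Q ≠ ⊥) : Q.ramificationIdx (𝓞 K) = 1 := by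
  have hP0 : Q.under (𝓞 K) ≠ ⊥ := Ideal.under_ne_bot _ hQ
  have hPmax : (Q.under (𝓞 K)).IsMaximal := Ideal.IsPrime.isMaximal inferInstance hP0
  have hfk : Finite (𝓞 K ⧸ Q.under (𝓞 K)) := Ideal.finiteQuotientOfFreeOfNeBot _ hP0
  have h1 := Ideal.card_inertia_eq_ramificationIdxIn (G := L ≃ₐ[K] L) (Q.under (𝓞 K)) Q
  rw [h8inv_inertia_eq_bot hunr Q hQ, Subgroup.card_bot] at h1
  rw [← Ideal.ramificationIdxIn_eq_ramificationIdx (Q.under (𝓞 K)) Q (L ≃ₐ[K] L), ← h1]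

/-- key step: an invariant ideal contained in a prime `Q` is contained in `(Q ∩ 𝓞 K) 𝓞 L` -/
lemma h8inv_le_map_under (hunr : H14CFT.UnramifiedEverywhere K L) (I : Ideal (𝓞 L))
    (hI : I ≠ ⊥) (hinv : ∀ σ : L ≃ₐ[K] L, σ • I = I) (Q : Ideal (𝓞 L)) [Q.IsPrime]
    (hIQ : I ≤ Q) : I ≤ (Q.under (𝓞 K)).map (algebraMap (𝓞 K) (𝓞 L)) := by
  classical
  have hQ : Q ≠ ⊥ := fun h => hI (le_bot_iff.mp (h ▸ hIQ))
  have hP0 : Q.under (𝓞 K) ≠ ⊥ := Ideal.under_ne_bot _ hQ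
  have hPmax : (Q.under (𝓞 K)).IsMaximal := Ideal.IsPrime.isMaximal inferInstance hP0
  have hq0 : (Q.under (𝓞 K)).map (algebraMap (𝓞 K) (𝓞 L)) ≠ ⊥ :=
    Ideal.map_ne_bot_of_ne_bot hP0
  rw [← Ideal.dvd_iff_le,
    UniqueFactorizationMonoid.dvd_iff_normalizedFactors_le_normalizedFactors hq0 hI,
    Multiset.le_iff_count]
  intro P
  by_cases hP : P ∈ UniqueFactorizationMonoid.normalizedFactors
      ((Q.under (𝓞 K)).map (algebraMap (𝓞 K) (𝓞 L)))
  · obtain ⟨hPprime, hPle⟩ := (Ideal.mem_normalizedFactors_iff hq0).mp hP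
    haveI := hPprime
    -- `P` lies over `Q ∩ 𝓞 K`
    have hunder : Q.under (𝓞 K) = P.under (𝓞 K) := by
      have h1 : Q.under (𝓞 K) ≤ P.under (𝓞 K) := by
        rw [Ideal.under_def, ← Ideal.map_le_iff_le_comap]
        exact hPle
      exact hPmax.eq_of_le (Ideal.IsPrime.ne_top inferInstance) h1
    haveI : P.LiesOver (Q.under (𝓞 K)) := ⟨hunder⟩
    have hP0' : P ≠ ⊥ := fun h => hq0 (le_bot_iff.mp (h ▸ hPle))
    -- multiplicity of `P` in `q 𝓞 L` is `e = 1`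
    have hcount : Multiset.count P (UniqueFactorizationMonoid.normalizedFactors
        ((Q.under (𝓞 K)).map (algebraMap (𝓞 K) (𝓞 L)))) = 1 := by
      rw [← Ideal.IsDedekindDomain.ramificationIdx_eq_normalizedFactors_count (Q.under (𝓞 K)) P
        hq0]
      exact h8inv_ramificationIdx_eq_one hunr P hP0'
    rw [hcount, Multiset.one_le_count_iff_mem, Ideal.mem_normalizedFactors_iff hI]
    refine ⟨hPprime, ?_⟩
    obtain ⟨σ, hσ⟩ := Algebra.IsInvariant.exists_smul_of_under_eq (𝓞 K) (𝓞 L) (L ≃ₐ[K] L) Q P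
      hunder
    rw [hσ, ← hinv σ]
    exact Ideal.pointwise_smul_le_pointwise_smul_iff.mpr hIQ
  · rw [Multiset.count_eq_zero_of_notMem hP]
    exact Nat.zero_le _

/-- the induction -/
theorem h8inv_main (hunr : H14CFT.UnramifiedEverywhere K L) (I : Ideal (𝓞 L)) :
    I ≠ ⊥ → (∀ σ : L ≃ₐ[K] L, σ • I = I) →
      ∃ J : Ideal (𝓞 K), J.map (algebraMap (𝓞 K) (𝓞 L)) = I := by
  induction I using WellFoundedGT.induction with
  | ind I ih =>
    intro hI hinv
    by_cases htop : I = ⊤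
    · exact ⟨⊤, by rw [htop, Ideal.map_top]⟩
    obtain ⟨Q, hQmax, hIQ⟩ := Ideal.exists_le_maximal I htop
    haveI : Q.IsPrime := hQmax.isPrime
    have hQ : Q ≠ ⊥ := fun h => hI (le_bot_iff.mp (h ▸ hIQ))
    have hP0 : Q.under (𝓞 K) ≠ ⊥ := Ideal.under_ne_bot _ hQ
    set 𝔮 : Ideal (𝓞 L) := (Q.under (𝓞 K)).map (algebraMap (𝓞 K) (𝓞 L)) with h𝔮
    have hq0 : 𝔮 ≠ ⊥ := Ideal.map_ne_bot_of_ne_bot hP0
    have h𝔮Q : 𝔮 ≤ Q := by
      rw [h𝔮, Ideal.map_le_iff_le_comap]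
    have hle : I ≤ 𝔮 := h8inv_le_map_under hunr I hI hinv Q hIQ
    obtain ⟨I', hI'⟩ := Ideal.dvd_iff_le.mpr hle
    have hI'0 : I' ≠ ⊥ := by
      rintro rfl
      apply hI
      rw [hI', Ideal.mul_bot]
    -- `𝔮` is invariant
    have h𝔮inv : ∀ σ : L ≃ₐ[K] L, σ • 𝔮 = 𝔮 := by
      intro σ
      rw [h𝔮, Ideal.pointwise_smul_def, Ideal.map_map]
      congr 1
      ext x
      exact smul_algebraMap σ x
    -- `I'` is invariant
    have hI'inv : ∀ σ : L ≃ₐ[K] L, σ • I' = I' := by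
      intro σ
      have h1 : σ • I = σ • 𝔮 * σ • I' := by
        rw [hI', Ideal.pointwise_smul_def, Ideal.pointwise_smul_def, Ideal.pointwise_smul_def,
          Ideal.map_mul]
      rw [hinv σ, h𝔮inv σ] at h1
      have h2 : 𝔮 * I' = 𝔮 * σ • I' := hI'.symm.trans h1
      exact (mul_left_cancel₀ hq0 h2).symm
    -- `I'` is strictly bigger than `I`
    have hlt : I < I' := by
      have hle' : I ≤ I' := by
        rw [hI']
        exact Ideal.mul_le_right
      refine lt_of_le_of_ne hle' ?_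
      intro heq
      have h3 : 𝔮 * I' = 1 * I' := by
        rw [one_mul, ← hI', heq]
      have h4 : 𝔮 = 1 := mul_right_cancel₀ hI'0 h3
      have h5 : Q = ⊤ := top_le_iff.mp (by rw [← Ideal.one_eq_top, ← h4]; exact h𝔮Q)
      exact hQmax.ne_top h5
    obtain ⟨J', hJ'⟩ := ih I' hlt hI'0 hI'inv
    refine ⟨Q.under (𝓞 K) * J', ?_⟩
    rw [Ideal.map_mul, hJ', hI']

end H8INV

namespace H29FI

/-- **(INV)** -/
theorem h8inv_invariantIdeal : InvariantIdeal := by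
  intro K L _ _ _ _ _ _ hunr I hI hinv
  exact H8INV.h8inv_main hunr I hI hinv

end H29FI
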