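import Mathlib
import Fermat.Agent.CFT.FI.Defs
import Fermat.Agent.CFT.FI.INV_helper8

/-!
# T-CFT, module FI, slice C4 (helper8): capitulation bound

`L/K` cyclic of prime degree `p`, everywhere unramified, `σ` a generator.  For a unit `u` of `𝓞 L`
of relative norm `1`, Hilbert 90 gives `β ∈ 𝓞 L`, `β ≠ 0`, with `u σ(β) = β`; the ideal `(β)` is
Galois invariant, hence (INV) `(β) = J 𝓞 L` for an ideal `J` of `𝓞 K`, whose class capitulates.
If the classes attached to `u`, `u'` agree then `u⁻¹ u' ∈ im D`.  Hence `[ker N : im D] ≤ |ker j|`.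
-/

set_option autoImplicit false
set_option linter.unusedSectionVars false
set_option linter.style.haveILetI false

namespace H8C4

open NumberField
open scoped Pointwise nonZeroDivisors

variable {K L : Type} [Field K] [NumberField K] [Field L] [NumberField L] [Algebra K L]
  [IsGalois K L]

/-- a non-identity element generates a Galois group of prime order -/
lemma h8c4_mem_zpowers {p : ℕ} (hp : p.Prime) (hdeg : Module.finrank K L = p)
    (σ : L ≃ₐ[K] L) (hσ : σ ≠ 1) (τ : L ≃ₐ[K] L) : τ ∈ Subgroup.zpowers σ := by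
  have hcard : Nat.card (L ≃ₐ[K] L) = p := by
    rw [IsGalois.card_aut_eq_finrank, hdeg]
  haveI : Fact p.Prime := ⟨hp⟩
  exact mem_zpowers_of_prime_card hcard hσ

lemma h8c4_isCyclic {p : ℕ} (hp : p.Prime) (hdeg : Module.finrank K L = p) :
    IsCyclic (L ≃ₐ[K] L) := by
  have hcard : Nat.card (L ≃ₐ[K] L) = p := by
    rw [IsGalois.card_aut_eq_finrank, hdeg]
  haveI : Fact p.Prime := ⟨hp⟩
  exact isCyclic_of_prime_card hcard

/-- the restriction of `σ` to `𝓞 L` is the action -/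
lemma h8c4_galRestrict_eq (σ : L ≃ₐ[K] L) (x : 𝓞 L) :
    galRestrict (𝓞 K) K L (𝓞 L) σ x = σ • x := by
  apply RingOfIntegers.ext
  have h := algebraMap_galRestrict_apply (𝓞 K) (K := K) (L := L) (B := 𝓞 L) σ x
  exact h

/-- Hilbert 90, integral form, in terms of the action -/
lemma h8c4_hilbert90 {p : ℕ} (hp : p.Prime) (hdeg : Module.finrank K L = p)
    (σ : L ≃ₐ[K] L) (hσ : σ ≠ 1) (u : (𝓞 L)ˣ) (hu : H29FI.unitN K L u = 1) :
    ∃ β : 𝓞 L, β ≠ 0 ∧ (u : 𝓞 L) * σ • β = β := by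
  haveI := h8c4_isCyclic (K := K) (L := L) hp hdeg
  have hη : Algebra.norm K (algebraMap (𝓞 L) L (u : 𝓞 L)) = 1 := by
    have h1 : RingOfIntegers.norm K (u : 𝓞 L) = 1 := by
      have := congrArg Units.val hu
      simpa [H29FI.unitN] using this
    have h2 := RingOfIntegers.coe_norm K (u : 𝓞 L)
    rw [h1] at h2
    rw [← h2]
    simp
  obtain ⟨ε, hε0, hε⟩ := groupCohomology.exists_mul_galRestrict_of_norm_eq_one
    (A := 𝓞 K) (K := K) (L := L) (B := 𝓞 L) (g := σ) (h8c4_mem_zpowers hp hdeg σ hσ) hη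
  exact ⟨ε, hε0, by rw [← h8c4_galRestrict_eq]; exact hε⟩

lemma h8c4_smul_span_singleton (σ : L ≃ₐ[K] L) (x : 𝓞 L) :
    σ • (Ideal.span {x} : Ideal (𝓞 L)) = Ideal.span {σ • x} := by
  rw [Ideal.pointwise_smul_def, Ideal.map_span, Set.image_singleton]
  rfl

/-- the ideal `(β)` is invariant under the whole Galois group -/
lemma h8c4_span_invariant {p : ℕ} (hp : p.Prime) (hdeg : Module.finrank K L = p)
    (σ : L ≃ₐ[K] L) (hσ : σ ≠ 1) (u : (𝓞 L)ˣ) (β : 𝓞 L) (hβ : (u : 𝓞 L) * σ • β = β)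
    (τ : L ≃ₐ[K] L) : τ • (Ideal.span {β} : Ideal (𝓞 L)) = Ideal.span {β} := by
  have h1 : σ ∈ MulAction.stabilizer (L ≃ₐ[K] L) (Ideal.span {β} : Ideal (𝓞 L)) := by
    rw [MulAction.mem_stabilizer_iff, h8c4_smul_span_singleton,
      Ideal.span_singleton_eq_span_singleton]
    refine ⟨u, ?_⟩
    rw [mul_comm]
    exact hβ
  have h2 : Subgroup.zpowers σ ≤ MulAction.stabilizer (L ≃ₐ[K] L)
      (Ideal.span {β} : Ideal (𝓞 L)) := by
    rw [Subgroup.zpowers_le]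
    exact h1
  exact MulAction.mem_stabilizer_iff.mp (h2 (h8c4_mem_zpowers hp hdeg σ hσ τ))

/-- the data attached to a unit of norm one -/
lemma h8c4_exists {p : ℕ} (hp : p.Prime) (hdeg : Module.finrank K L = p)
    (hunr : H14CFT.UnramifiedEverywhere K L)
    (σ : L ≃ₐ[K] L) (hσ : σ ≠ 1) (u : (𝓞 L)ˣ) (hu : H29FI.unitN K L u = 1) :
    ∃ (β : 𝓞 L) (J : Ideal (𝓞 K)), β ≠ 0 ∧ (u : 𝓞 L) * σ • β = β ∧
      J.map (algebraMap (𝓞 K) (𝓞 L)) = Ideal.span {β} := by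
  obtain ⟨β, hβ0, hβ⟩ := h8c4_hilbert90 hp hdeg σ hσ u hu
  have hI0 : (Ideal.span {β} : Ideal (𝓞 L)) ≠ ⊥ := by
    rw [Ne, Ideal.span_singleton_eq_bot]
    exact hβ0
  obtain ⟨J, hJ⟩ := H29FI.h8inv_invariantIdeal K L hunr (Ideal.span {β}) hI0
    (h8c4_span_invariant hp hdeg σ hσ u β hβ)
  exact ⟨β, J, hβ0, hβ, hJ⟩

/-- key step: equal classes give units differing by an element of `im D` -/
lemma h8c4_key (σ : L ≃ₐ[K] L) (u u' : (𝓞 L)ˣ) (β β' : 𝓞 L) (J J' : (Ideal (𝓞 K))⁰)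
    (hβ0 : β ≠ 0) (hβ : (u : 𝓞 L) * σ • β = β) (hβ' : (u' : 𝓞 L) * σ • β' = β')
    (hJ : J.1.map (algebraMap (𝓞 K) (𝓞 L)) = Ideal.span {β})
    (hJ' : J'.1.map (algebraMap (𝓞 K) (𝓞 L)) = Ideal.span {β'})
    (hcl : ClassGroup.mk0 J = ClassGroup.mk0 J') :
    u⁻¹ * u' ∈ (H29FI.unitD K L σ).range := by
  rw [ClassGroup.mk0_eq_mk0_iff] at hcl
  obtain ⟨x, y, hx, hy, hxy⟩ := hcl
  have h1 := congrArg (Ideal.map (algebraMap (𝓞 K) (𝓞 L))) hxy
  rw [Ideal.map_mul, Ideal.map_mul, hJ, hJ', Ideal.map_span, Ideal.map_span,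
    Set.image_singleton, Set.image_singleton, Ideal.span_singleton_mul_span_singleton,
    Ideal.span_singleton_mul_span_singleton, Ideal.span_singleton_eq_span_singleton] at h1
  obtain ⟨ε, hε⟩ := h1
  -- apply `σ`
  have h2 := congrArg (fun z : 𝓞 L => σ • z) hε
  simp only [smul_mul', smul_algebraMap] at h2
  have hσβ0 : σ • β ≠ 0 := by
    intro h0
    apply hβ0
    rw [← hβ, h0, mul_zero]
  have hx0 : algebraMap (𝓞 K) (𝓞 L) x ≠ 0 := by
    rw [Ne, map_eq_zero_iff _ (FaithfulSMul.algebraMap_injective (𝓞 K) (𝓞 L))]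
    exact hx
  -- the unit identity
  have h3 : (u : 𝓞 L) * (ε : 𝓞 L) = (u' : 𝓞 L) * σ • (ε : 𝓞 L) := by
    have h4 : algebraMap (𝓞 K) (𝓞 L) x * σ • β * ((u : 𝓞 L) * (ε : 𝓞 L)) =
        algebraMap (𝓞 K) (𝓞 L) x * σ • β * ((u' : 𝓞 L) * σ • (ε : 𝓞 L)) := by
      calc algebraMap (𝓞 K) (𝓞 L) x * σ • β * ((u : 𝓞 L) * (ε : 𝓞 L))
          = algebraMap (𝓞 K) (𝓞 L) x * ((u : 𝓞 L) * σ • β) * (ε : 𝓞 L) := by ring
        _ = algebraMap (𝓞 K) (𝓞 L) y * β' := by rw [hβ, hε]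
        _ = (u' : 𝓞 L) * (algebraMap (𝓞 K) (𝓞 L) y * σ • β') := by
            rw [← hβ']; ring_nf; rw [hβ']
        _ = (u' : 𝓞 L) * (algebraMap (𝓞 K) (𝓞 L) x * σ • β * σ • (ε : 𝓞 L)) := by rw [h2]
        _ = algebraMap (𝓞 K) (𝓞 L) x * σ • β * ((u' : 𝓞 L) * σ • (ε : 𝓞 L)) := by ring
    exact mul_left_cancel₀ (mul_ne_zero hx0 hσβ0) h4
  refine ⟨ε⁻¹, ?_⟩
  -- `D(ε⁻¹) = u⁻¹ u'`
  have h5 : H29FI.unitD K L σ ε = u'⁻¹ * u := by
    rw [eq_comm, inv_mul_eq_iff_eq_mul]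
    apply Units.ext
    have h6 : ((H29FI.unitD K L σ ε : (𝓞 L)ˣ) : 𝓞 L) * (ε : 𝓞 L) = σ • (ε : 𝓞 L) := by
      have h7 : H29FI.unitD K L σ ε * ε = H29FI.unitAut K L σ ε := by
        simp [H29FI.unitD]
      have h8 := congrArg Units.val h7
      simpa [H29FI.unitAut] using h8
    have hε0 : (ε : 𝓞 L) ≠ 0 := ε.ne_zero
    apply mul_right_cancel₀ hε0
    rw [Units.val_mul, mul_assoc, h6, h3]
  rw [map_inv, h5, mul_inv_rev, inv_inv]

end H8C4

namespace H29FI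

open NumberField
open scoped Pointwise nonZeroDivisors

/-- **(C4)** capitulation bound -/
theorem h8c4_capitulationBound (p : ℕ) : CapitulationBound p := by
  intro K L _ _ _ _ _ _ hp hdeg hunr σ hσ
  classical
  have hex := fun (u : (unitN K L).ker) => H8C4.h8c4_exists hp hdeg hunr σ hσ u.1 u.2
  choose β J hβ0 hβ hJ using hex
  have hJ0 : ∀ u, J u ∈ (Ideal (𝓞 K))⁰ := by
    intro u
    rw [mem_nonZeroDivisors_iff_ne_zero]
    intro h0
    have h1 := hJ u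
    rw [h0, Ideal.zero_eq_bot, Ideal.map_bot, eq_comm, Ideal.span_singleton_eq_bot] at h1
    exact hβ0 u h1
  have hker : ∀ u, ClassGroup.mk0 ⟨J u, hJ0 u⟩ ∈ (ClassGroup.extendedHom (𝓞 K) (𝓞 L)).ker := by
    intro u
    rw [MonoidHom.mem_ker, ClassGroup.extendedHom_mk0, ClassGroup.mk0_eq_one_iff]
    show ((J u).map (algebraMap (𝓞 K) (𝓞 L))).IsPrincipal
    rw [hJ u]
    exact ⟨⟨β u, rfl⟩⟩
  let f : (unitN K L).ker ⧸ ((unitD K L σ).range.subgroupOf (unitN K L).ker) →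
      (ClassGroup.extendedHom (𝓞 K) (𝓞 L)).ker :=
    fun q => ⟨ClassGroup.mk0 ⟨J q.out, hJ0 q.out⟩, hker q.out⟩
  have hf : Function.Injective f := by
    intro q q' hqq'
    have h1 : ClassGroup.mk0 ⟨J q.out, hJ0 q.out⟩ = ClassGroup.mk0 ⟨J q'.out, hJ0 q'.out⟩ :=
      congrArg Subtype.val hqq'
    have h2 := H8C4.h8c4_key σ q.out.1 q'.out.1 (β q.out) (β q'.out) ⟨J q.out, hJ0 q.out⟩
      ⟨J q'.out, hJ0 q'.out⟩ (hβ0 _) (hβ _) (hβ _) (hJ _) (hJ _) h1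
    rw [← QuotientGroup.out_eq' q, ← QuotientGroup.out_eq' q', QuotientGroup.eq]
    rw [Subgroup.mem_subgroupOf]
    simpa using h2
  have hfin : Finite (ClassGroup.extendedHom (𝓞 K) (𝓞 L)).ker := inferInstance
  show ((unitD K L σ).range.subgroupOf (unitN K L).ker).index ≤ _
  rw [Subgroup.index]
  exact Nat.card_le_card_of_injective f hf

end H29FI
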