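/-
T-CFT module FI, slice CM (helper18): the maps `ν` (norm) and `t` (action of `σ`) on class groups.
-/
import Mathlib
import Fermat.Agent.CFT.FI.Defs
import Fermat.Agent.CFT.CR.H18ClassNorm

set_option autoImplicit false
set_option linter.unusedSectionVars false

namespace H18CR

open NumberField
open scoped Pointwise nonZeroDivisors

section Action

variable {K L : Type} [Field K] [NumberField K] [Field L] [NumberField L] [Algebra K L]

theorem h18cr_smul_ne_bot (σ : L ≃ₐ[K] L) {I : Ideal (𝓞 L)} (hI : I ≠ ⊥) : σ • I ≠ ⊥ := by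
  intro h
  apply hI
  have := congrArg (fun J : Ideal (𝓞 L) => σ⁻¹ • J) h
  simpa using this

/-- The action of `σ` on nonzero ideals. -/
noncomputable def h18cr_smul0 (σ : L ≃ₐ[K] L) (I : (Ideal (𝓞 L))⁰) : (Ideal (𝓞 L))⁰ :=
  ⟨σ • I.1, mem_nonZeroDivisors_iff_ne_zero.mpr
    (h18cr_smul_ne_bot σ (mem_nonZeroDivisors_iff_ne_zero.mp I.2))⟩

theorem h18cr_smul0_mul (σ : L ≃ₐ[K] L) (I J : (Ideal (𝓞 L))⁰) :
    h18cr_smul0 σ (I * J) = h18cr_smul0 σ I * h18cr_smul0 σ J := by
  apply Subtype.ext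
  show σ • (I.1 * J.1) = σ • I.1 * σ • J.1
  exact smul_mul' σ I.1 J.1

theorem h18cr_smul0_one (σ : L ≃ₐ[K] L) : h18cr_smul0 σ (1 : (Ideal (𝓞 L))⁰) = 1 := by
  apply Subtype.ext
  show σ • (1 : Ideal (𝓞 L)) = 1
  exact smul_one σ

theorem h18cr_smul_span_singleton (σ : L ≃ₐ[K] L) (x : 𝓞 L) :
    σ • (Ideal.span {x} : Ideal (𝓞 L)) = Ideal.span {σ • x} := by
  rw [Ideal.pointwise_smul_def, Ideal.map_span, Set.image_singleton]
  rfl

theorem h18cr_mk0_smul0_congr (σ : L ≃ₐ[K] L) {I J : (Ideal (𝓞 L))⁰}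
    (h : ClassGroup.mk0 I = ClassGroup.mk0 J) :
    ClassGroup.mk0 (h18cr_smul0 σ I) = ClassGroup.mk0 (h18cr_smul0 σ J) := by
  rw [ClassGroup.mk0_eq_mk0_iff] at h ⊢
  obtain ⟨x, y, hx, hy, hxy⟩ := h
  refine ⟨σ • x, σ • y, ?_, ?_, ?_⟩
  · intro h0
    apply hx
    have := congrArg (fun z : 𝓞 L => σ⁻¹ • z) h0
    simpa using this
  · intro h0
    apply hy
    have := congrArg (fun z : 𝓞 L => σ⁻¹ • z) h0
    simpa using this
  · have := congrArg (fun A : Ideal (𝓞 L) => σ • A) hxy
    simp only [smul_mul', h18cr_smul_span_singleton] at this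
    exact this

/-- The action of `σ` on the class group. -/
noncomputable def h18cr_classAct (σ : L ≃ₐ[K] L) : ClassGroup (𝓞 L) →* ClassGroup (𝓞 L) where
  toFun c := ClassGroup.mk0 (h18cr_smul0 σ (Classical.choose (ClassGroup.mk0_surjective c)))
  map_one' := by
    have h := Classical.choose_spec (ClassGroup.mk0_surjective (1 : ClassGroup (𝓞 L)))
    have h1 : ClassGroup.mk0 (Classical.choose (ClassGroup.mk0_surjective (1 : ClassGroup (𝓞 L)))) =
        ClassGroup.mk0 (1 : (Ideal (𝓞 L))⁰) := by rw [h, map_one]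
    rw [h18cr_mk0_smul0_congr σ h1, h18cr_smul0_one, map_one]
  map_mul' c d := by
    have hc := Classical.choose_spec (ClassGroup.mk0_surjective c)
    have hd := Classical.choose_spec (ClassGroup.mk0_surjective d)
    have hcd := Classical.choose_spec (ClassGroup.mk0_surjective (c * d))
    have h1 : ClassGroup.mk0 (Classical.choose (ClassGroup.mk0_surjective (c * d))) =
        ClassGroup.mk0 (Classical.choose (ClassGroup.mk0_surjective c) *
          Classical.choose (ClassGroup.mk0_surjective d)) := by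
      rw [hcd, map_mul, hc, hd]
    rw [h18cr_mk0_smul0_congr σ h1, h18cr_smul0_mul, map_mul]

theorem h18cr_classAct_mk0 (σ : L ≃ₐ[K] L) (I : (Ideal (𝓞 L))⁰) :
    h18cr_classAct σ (ClassGroup.mk0 I) = ClassGroup.mk0 (h18cr_smul0 σ I) := by
  have h := Classical.choose_spec (ClassGroup.mk0_surjective (ClassGroup.mk0 I))
  exact h18cr_mk0_smul0_congr σ h

/-- **Slice CM**: the class maps `ν`, `t`. -/
noncomputable def h18cr_classMaps (K L : Type) [Field K] [NumberField K] [Field L] [NumberField L]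
    [Algebra K L] (σ : L ≃ₐ[K] L) : H29FI.ClassMaps K L σ where
  ν := h18cr_classNorm (R := 𝓞 K) (S := 𝓞 L)
  t := h18cr_classAct σ
  ν_mk0 I J h := by
    rw [h18cr_classNorm_mk0]
    congr 1
    exact Subtype.ext h.symm
  t_mk0 I I' h := by
    rw [h18cr_classAct_mk0]
    congr 1
    exact Subtype.ext h.symm

end Action

end H18CR
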