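import Fermat.Agent.CFT.FI.UNCore

/-!
# T-CFT / FI / UN (helper29): the unit index inequality for an automorphism of order `p`

`h29fi_unit_abs`: `A` finitely generated abelian group, `s` an endomorphism with `s^p = 1`,
`D = s - 1`, `N = 1 + s + ... + s^(p-1)`, `rank A + 1 = p (rank A^s + 1)`, the `p`-torsion of
`A^s` has exactly... at most `p` elements and is nontrivial.  Then
`p * [ker D : im N] ≤ [ker N : im D]` and `[ker D : im N] ≠ 0`.
-/

set_option autoImplicit false

namespace H29FI

open Module Polynomial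

section unitabs

variable {A : Type*} [AddCommGroup A]

theorem h29fi_aeval_comm (s : AddMonoid.End A) (f g : ℤ[X]) (x : A) :
    (aeval s f) ((aeval s g) x) = (aeval s g) ((aeval s f) x) := by
  have h : aeval s f * aeval s g = aeval s g * aeval s f := by
    rw [← map_mul, ← map_mul, mul_comm]
  exact DFunLike.congr_fun h x

theorem h29fi_unit_abs [Module.Finite ℤ A] (p : ℕ) (hp : p.Prime) (s D N : A →+ A)
    (hs : ∀ x, s^[p] x = x)
    (hD : ∀ x, D x = s x - x)
    (hN : ∀ x, N x = ∑ i ∈ Finset.range p, s^[i] x)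
    (hrank : finrank ℤ A + 1 = p * (finrank ℤ D.ker + 1))
    (htors : ∃ t : A, D t = 0 ∧ t ≠ 0 ∧ p • t = 0)
    (hcard : Nat.card {t : A // D t = 0 ∧ p • t = 0} ≤ p) :
    N.range.relIndex D.ker ≠ 0 ∧ p * N.range.relIndex D.ker ≤ D.range.relIndex N.ker := by
  let sE : AddMonoid.End A := s
  have hsE : sE ^ p = 1 := by
    ext x
    rw [AddMonoid.End.coe_pow]
    exact hs x
  have hDE' : aeval sE (X - 1 : ℤ[X]) = sE - 1 := by rw [map_sub, aeval_X, map_one]
  have hNE' : aeval sE (∑ i ∈ Finset.range p, X ^ i : ℤ[X]) = ∑ i ∈ Finset.range p, sE ^ i := by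
    rw [map_sum]
    simp only [map_pow, aeval_X]
  have hsum : ∀ (n : ℕ) (x : A), (∑ i ∈ Finset.range n, sE ^ i : AddMonoid.End A) x =
      ∑ i ∈ Finset.range n, s^[i] x := by
    intro n x
    induction n with
    | zero => simp
    | succ n ih =>
      rw [Finset.sum_range_succ, Finset.sum_range_succ, ← ih]
      show (∑ i ∈ Finset.range n, sE ^ i : AddMonoid.End A) x + (sE ^ n) x = _
      rw [AddMonoid.End.coe_pow]
      rfl
  have hDE : ∀ x, D x = (aeval sE (X - 1 : ℤ[X])) x := by
    intro x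
    rw [hD, hDE']
    rfl
  have hNE : ∀ x, N x = (aeval sE (∑ i ∈ Finset.range p, X ^ i : ℤ[X])) x := by
    intro x
    rw [hN, hNE', hsum]
  have hXp : aeval sE (X ^ p - 1 : ℤ[X]) = 0 := by
    simp [hsE]
  have hDN : ∀ x, D (N x) = 0 := by
    intro x
    rw [hDE, hNE]
    have : aeval sE (X - 1 : ℤ[X]) * aeval sE (∑ i ∈ Finset.range p, X ^ i : ℤ[X]) = 0 := by
      rw [← map_mul, mul_geom_sum, hXp]
    exact DFunLike.congr_fun this x
  have hND : ∀ x, N (D x) = 0 := by
    intro x
    rw [hNE, hDE, h29fi_aeval_comm, ← hNE, ← hDE]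
    exact hDN x
  have hNX : ∀ x, D x = 0 → N x = p • x := by
    intro x hx
    have hsx : s x = x := by
      rw [hD] at hx
      exact sub_eq_zero.mp hx
    rw [hN]
    have : ∀ i, s^[i] x = x := fun i => Function.iterate_fixed hsx i
    simp [this]
  obtain ⟨w, hw⟩ := h29fi_poly_identity p hp
  obtain ⟨u, hu⟩ := h29fi_poly_identity' p
  have hiter : ∀ (k : ℕ) (x : A), D^[k] x = (aeval sE ((X - 1 : ℤ[X]) ^ k)) x := by
    intro k
    induction k with
    | zero => intro x; simp
    | succ k ih =>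
      intro x
      rw [Function.iterate_succ_apply', ih, hDE, pow_succ', map_mul]
      rfl
  have hW : ∀ x, N x = 0 → ∃ y, N y = 0 ∧ (D^[p-1]) x = p • y := by
    intro x hx
    refine ⟨(aeval sE w) x, ?_, ?_⟩
    · rw [hNE, h29fi_aeval_comm, ← hNE, hx, map_zero]
    · rw [hiter, hw, map_add, map_mul]
      have h1 : (aeval sE (∑ i ∈ Finset.range p, X ^ i : ℤ[X])) x = 0 := by rw [← hNE]; exact hx
      have h2 : (aeval sE (C (p : ℤ))) = (p : AddMonoid.End A) := by
        simp
      rw [h2]
      show (aeval sE (∑ i ∈ Finset.range p, X ^ i : ℤ[X])) x + ((p : AddMonoid.End A) * (aeval sE w)) x = _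
      rw [h1, zero_add]
      show (p : AddMonoid.End A) ((aeval sE w) x) = _
      simp
  have hU : ∀ x, N x = 0 → ∃ y, N y = 0 ∧ p • x = D y := by
    intro x hx
    refine ⟨-(aeval sE u) x, ?_, ?_⟩
    · rw [map_neg, hNE, h29fi_aeval_comm, ← hNE, hx, map_zero, neg_zero]
    · have h0 : (aeval sE (∑ i ∈ Finset.range p, X ^ i : ℤ[X])) x = 0 := by rw [← hNE]; exact hx
      rw [hu, map_add, map_mul] at h0
      have h2 : (aeval sE (C (p : ℤ))) = (p : AddMonoid.End A) := by
        simp
      rw [h2] at h0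
      have h3 : (p : AddMonoid.End A) x + (aeval sE (X - 1 : ℤ[X])) ((aeval sE u) x) = 0 := h0
      rw [← hDE] at h3
      have h4 : (p : AddMonoid.End A) x = p • x := by simp
      rw [h4] at h3
      rw [map_neg]
      exact eq_neg_of_add_eq_zero_left h3
  exact h29fi_core p hp D N hDN hND hNX hW hU hrank htors hcard

end unitabs

end H29FI
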