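import Fermat.Agent.CFT.FI.Defs
import Fermat.Agent.CFT.FI.UNEnd

set_option autoImplicit false
set_option linter.unusedSectionVars false

namespace H29FI

open NumberField Module
open scoped Pointwise

section inst

variable (K L : Type) [Field K] [NumberField K] [Field L] [NumberField L] [Algebra K L]

theorem h29fi_unitAut_coe (σ : L ≃ₐ[K] L) (u : (𝓞 L)ˣ) :
    (((unitAut K L σ u : (𝓞 L)ˣ) : 𝓞 L) : L) = σ ((u : 𝓞 L) : L) := rfl

theorem h29fi_unitAut_mul (σ τ : L ≃ₐ[K] L) (u : (𝓞 L)ˣ) :
    unitAut K L (σ * τ) u = unitAut K L σ (unitAut K L τ u) := by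
  apply Units.ext
  apply RingOfIntegers.ext
  rfl

theorem h29fi_unitAut_one (u : (𝓞 L)ˣ) : unitAut K L 1 u = u := by
  apply Units.ext
  apply RingOfIntegers.ext
  rfl

theorem h29fi_unitAut_pow (σ : L ≃ₐ[K] L) (n : ℕ) (u : (𝓞 L)ˣ) :
    (unitAut K L σ)^[n] u = unitAut K L (σ ^ n) u := by
  induction n with
  | zero => simp [h29fi_unitAut_one]
  | succ n ih => rw [Function.iterate_succ_apply', ih, pow_succ', h29fi_unitAut_mul]

/-- the inclusion of units -/
noncomputable def unitIncl : (𝓞 K)ˣ →* (𝓞 L)ˣ := Units.map (algebraMap (𝓞 K) (𝓞 L))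

theorem h29fi_unitIncl_injective : Function.Injective (unitIncl K L) := by
  intro a b h
  apply Units.ext
  have := congrArg (fun u : (𝓞 L)ˣ => (u : 𝓞 L)) h
  exact FaithfulSMul.algebraMap_injective (𝓞 K) (𝓞 L) this

variable [IsGalois K L]

theorem h29fi_prod_gal {p : ℕ} (hp : p.Prime) (hdeg : Module.finrank K L = p)
    (σ : L ≃ₐ[K] L) (hσ : σ ≠ 1) {M : Type*} [CommMonoid M] (f : (L ≃ₐ[K] L) → M) :
    ∏ τ : L ≃ₐ[K] L, f τ = ∏ i ∈ Finset.range p, f (σ ^ i) := by
  classical
  have hcard : Nat.card (L ≃ₐ[K] L) = p := by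
    rw [IsGalois.card_aut_eq_finrank, hdeg]
  have hord : orderOf σ = p := by
    have h1 : orderOf σ ∣ p := hcard ▸ orderOf_dvd_natCard σ
    rcases (Nat.dvd_prime hp).mp h1 with h | h
    · exact absurd (orderOf_eq_one_iff.mp h) hσ
    · exact h
  have hinj : Set.InjOn (fun i : ℕ => σ ^ i) (Finset.range p : Set ℕ) := by
    intro i hi j hj hij
    have := pow_injOn_Iio_orderOf (x := σ)
    rw [hord] at this
    exact this (by simpa using hi) (by simpa using hj) hij
  have himg : (Finset.range p).image (fun i : ℕ => σ ^ i) = Finset.univ := by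
    apply Finset.eq_univ_of_card
    rw [Finset.card_image_of_injOn hinj, Finset.card_range, ← Nat.card_eq_fintype_card, hcard]
  rw [← himg, Finset.prod_image hinj]

theorem h29fi_norm_eq_prod {p : ℕ} (hp : p.Prime) (hdeg : Module.finrank K L = p)
    (σ : L ≃ₐ[K] L) (hσ : σ ≠ 1) (u : (𝓞 L)ˣ) :
    unitIncl K L (unitN K L u) = ∏ i ∈ Finset.range p, (unitAut K L σ)^[i] u := by
  apply Units.ext
  apply RingOfIntegers.ext
  have h1 : (((unitIncl K L (unitN K L u) : (𝓞 L)ˣ) : 𝓞 L) : L) =
      algebraMap K L (Algebra.norm K ((u : 𝓞 L) : L)) := by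
    simp [unitIncl, unitN]
    rfl
  rw [h1, Algebra.norm_eq_prod_automorphisms, h29fi_prod_gal K L hp hdeg σ hσ]
  simp only [h29fi_unitAut_pow]
  rw [Units.coe_prod]
  show _ = algebraMap (𝓞 L) L (∏ i ∈ Finset.range p, ((unitAut K L (σ ^ i) u : (𝓞 L)ˣ) : 𝓞 L))
  rw [map_prod]
  exact Finset.prod_congr rfl (fun i _ => rfl)

/-- a unit of `𝓞 L` fixed by a generator `σ` comes from `𝓞 K`. -/
theorem h29fi_fixed_unit {p : ℕ} (hp : p.Prime) (hdeg : Module.finrank K L = p)
    (σ : L ≃ₐ[K] L) (hσ : σ ≠ 1) (u : (𝓞 L)ˣ) (hu : unitAut K L σ u = u) :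
    ∃ k : (𝓞 K)ˣ, unitIncl K L k = u := by
  classical
  -- `u` is fixed by every power of `σ`, hence by the whole Galois group
  have hfix : ∀ τ : L ≃ₐ[K] L, τ ((u : 𝓞 L) : L) = ((u : 𝓞 L) : L) := by
    have hpow : ∀ i : ℕ, (σ ^ i) ((u : 𝓞 L) : L) = ((u : 𝓞 L) : L) := by
      intro i
      have h1 : unitAut K L (σ ^ i) u = u := by
        rw [← h29fi_unitAut_pow]
        exact Function.iterate_fixed hu i
      have := congrArg (fun v : (𝓞 L)ˣ => (((v : (𝓞 L)ˣ) : 𝓞 L) : L)) h1
      exact this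
    intro τ
    have hcard : Nat.card (L ≃ₐ[K] L) = p := by
      rw [IsGalois.card_aut_eq_finrank, hdeg]
    have hord : orderOf σ = p := by
      have h1 : orderOf σ ∣ p := hcard ▸ orderOf_dvd_natCard σ
      rcases (Nat.dvd_prime hp).mp h1 with h | h
      · exact absurd (orderOf_eq_one_iff.mp h) hσ
      · exact h
    have hmem : τ ∈ Subgroup.zpowers σ := by
      have : Subgroup.zpowers σ = ⊤ := by
        apply Subgroup.eq_top_of_card_eq
        rw [Nat.card_zpowers, hord, hcard]
      rw [this]; trivial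
    have hmem' := mem_zpowers_iff_mem_range_orderOf.mp hmem
    obtain ⟨i, _, hi⟩ := Finset.mem_image.mp hmem'
    rw [← hi]
    exact hpow i
  obtain ⟨k, hk⟩ := (IsGalois.mem_range_algebraMap_iff_fixed ((u : 𝓞 L) : L)).mpr hfix
  have hkint : IsIntegral ℤ k := by
    have h1 : IsIntegral ℤ (algebraMap K L k) := by
      rw [hk]; exact RingOfIntegers.isIntegral_coe (u : 𝓞 L)
    exact (isIntegral_algebraMap_iff (FaithfulSMul.algebraMap_injective K L)).mp h1
  let k' : 𝓞 K := ⟨k, hkint⟩
  have hk' : algebraMap (𝓞 K) (𝓞 L) k' = (u : 𝓞 L) := by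
    apply RingOfIntegers.ext
    exact hk
  have hunit : IsUnit k' := by
    have h1 : RingOfIntegers.norm K (algebraMap (𝓞 K) (𝓞 L) k') = k' ^ Module.finrank K L :=
      RingOfIntegers.norm_algebraMap K k'
    have h2 : IsUnit (RingOfIntegers.norm K (algebraMap (𝓞 K) (𝓞 L) k')) := by
      rw [hk']
      exact (Units.isUnit u).map (RingOfIntegers.norm K)
    rw [h1, hdeg] at h2
    exact (isUnit_pow_iff hp.ne_zero).mp h2
  refine ⟨hunit.unit, ?_⟩
  apply Units.ext
  show algebraMap (𝓞 K) (𝓞 L) (hunit.unit : 𝓞 K) = _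
  rw [IsUnit.unit_spec, hk']

/-- number of infinite places of `L` -/
theorem h29fi_card_places {p : ℕ} (hp : p.Prime) (hp2 : p ≠ 2) [IsCyclotomicExtension {p} ℚ K]
    (hdeg : Module.finrank K L = p) :
    Fintype.card (InfinitePlace L) = p * Fintype.card (InfinitePlace K) := by
  have h2p : 2 < p := lt_of_le_of_ne hp.two_le (Ne.symm hp2)
  have : NeZero p := ⟨hp.ne_zero⟩
  have hK : IsTotallyComplex K := IsCyclotomicExtension.Rat.isTotallyComplex K h2p
  have hL : IsTotallyComplex L := isTotallyComplex_of_algebra K L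
  have h1 := IsTotallyComplex.finrank (K := K)
  have h2 := IsTotallyComplex.finrank (K := L)
  have h3 : Module.finrank ℚ L = Module.finrank ℚ K * Module.finrank K L :=
    (Module.finrank_mul_finrank ℚ K L).symm
  rw [InfinitePlace.card_eq_nrRealPlaces_add_nrComplexPlaces,
    InfinitePlace.card_eq_nrRealPlaces_add_nrComplexPlaces,
    IsTotallyComplex.nrRealPlaces_eq_zero, IsTotallyComplex.nrRealPlaces_eq_zero, zero_add,
    zero_add]
  rw [h1, h2, hdeg] at h3
  have : 2 * InfinitePlace.nrComplexPlaces L = 2 * (p * InfinitePlace.nrComplexPlaces K) := by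
    rw [h3]; ring
  omega

theorem h29fi_range_toAdditive {G H : Type*} [Group G] [Group H] (f : G →* H) :
    (MonoidHom.toAdditive f).range = Subgroup.toAddSubgroup f.range := by
  ext x
  exact Iff.rfl

theorem h29fi_ker_toAdditive {G H : Type*} [Group G] [Group H] (f : G →* H) :
    (MonoidHom.toAdditive f).ker = Subgroup.toAddSubgroup f.ker := by
  ext x
  exact Iff.rfl

/-- **(UN)** the unit index inequality. -/
theorem h29fi_unitIndexIneq (p : ℕ) : UnitIndexIneq p := by
  intro K L _ _ _ _ _ _ _ hp hp2 hdeg σ hσ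
  classical
  have h2p : 2 < p := lt_of_le_of_ne hp.two_le (Ne.symm hp2)
  have : NeZero p := ⟨hp.ne_zero⟩
  let s : Additive (𝓞 L)ˣ →+ Additive (𝓞 L)ˣ := MonoidHom.toAdditive (unitAut K L σ)
  let D : Additive (𝓞 L)ˣ →+ Additive (𝓞 L)ˣ := MonoidHom.toAdditive (unitD K L σ)
  let N : Additive (𝓞 L)ˣ →+ Additive (𝓞 L)ˣ :=
    MonoidHom.toAdditive ((unitIncl K L).comp (unitN K L))
  have hcardG : Nat.card (L ≃ₐ[K] L) = p := by
    rw [IsGalois.card_aut_eq_finrank, hdeg]
  have hsiter : ∀ (n : ℕ) (x : Additive (𝓞 L)ˣ),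
      s^[n] x = Additive.ofMul ((unitAut K L σ)^[n] (Additive.toMul x)) := by
    intro n
    induction n with
    | zero => intro x; rfl
    | succ n ih =>
      intro x
      rw [Function.iterate_succ_apply', Function.iterate_succ_apply', ih]
      rfl
  have hs : ∀ x, s^[p] x = x := by
    intro x
    rw [hsiter, h29fi_unitAut_pow]
    have : σ ^ p = 1 := by
      rw [← hcardG]; exact pow_card_eq_one'
    rw [this, h29fi_unitAut_one]
    rfl
  have hD : ∀ x, D x = s x - x := fun x => rfl
  have hN : ∀ x, N x = ∑ i ∈ Finset.range p, s^[i] x := by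
    intro x
    have h1 := h29fi_norm_eq_prod K L hp hdeg σ hσ (Additive.toMul x)
    show Additive.ofMul ((unitIncl K L) ((unitN K L) (Additive.toMul x))) = _
    rw [h1, ofMul_prod]
    exact Finset.sum_congr rfl (fun i _ => (hsiter i x).symm)
  -- the kernel of `D` is the image of the units of `K`
  have hkerD : (unitD K L σ).ker = (unitIncl K L).range := by
    ext u
    rw [MonoidHom.mem_ker, MonoidHom.mem_range]
    constructor
    · intro h
      have hu : unitAut K L σ u = u := by
        have : unitAut K L σ u / u = 1 := h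
        exact div_eq_one.mp this
      exact h29fi_fixed_unit K L hp hdeg σ hσ u hu
    · rintro ⟨k, rfl⟩
      show unitAut K L σ (unitIncl K L k) / unitIncl K L k = 1
      rw [div_eq_one]
      apply Units.ext
      apply RingOfIntegers.ext
      show σ (algebraMap K L (k : 𝓞 K)) = algebraMap K L (k : 𝓞 K)
      exact σ.commutes _
  -- ranks
  have hrkD : Module.finrank ℤ D.ker = Module.finrank ℤ (Additive (𝓞 K)ˣ) := by
    let f : Additive (𝓞 K)ˣ →+ D.ker :=
      (MonoidHom.toAdditive (unitIncl K L)).codRestrict D.ker (by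
        intro x
        rw [h29fi_ker_toAdditive, hkerD]
        exact ⟨Additive.toMul x, rfl⟩)
    have hf : Function.Bijective f := by
      constructor
      · intro a b hab
        have := congrArg (fun z : D.ker => (z : Additive (𝓞 L)ˣ)) hab
        exact h29fi_unitIncl_injective K L this
      · rintro ⟨y, hy⟩
        rw [h29fi_ker_toAdditive, hkerD] at hy
        obtain ⟨k, hk⟩ := hy
        exact ⟨Additive.ofMul k, Subtype.ext hk⟩
    exact (LinearEquiv.finrank_eq (AddEquiv.toIntLinearEquiv (AddEquiv.ofBijective f hf))).symm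
  have hrank : Module.finrank ℤ (Additive (𝓞 L)ˣ) + 1 = p * (Module.finrank ℤ D.ker + 1) := by
    rw [hrkD, Units.finrank_eq, Units.finrank_eq, Units.rank, Units.rank]
    have h1 := h29fi_card_places K L hp hp2 hdeg
    have h2 : 0 < Fintype.card (InfinitePlace K) := Fintype.card_pos
    have h3 : 0 < Fintype.card (InfinitePlace L) := Fintype.card_pos
    rw [Nat.sub_add_cancel h3, Nat.sub_add_cancel h2, h1]
  -- torsion
  have hζ := IsCyclotomicExtension.zeta_spec p ℚ K
  have hζ'p : hζ.toInteger ^ p = 1 := by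
    apply RingOfIntegers.ext
    show (IsCyclotomicExtension.zeta p ℚ K) ^ p = 1
    exact hζ.pow_eq_one
  let zu : (𝓞 K)ˣ := Units.ofPowEqOne hζ.toInteger p hζ'p hp.ne_zero
  have hzu : (((zu : (𝓞 K)ˣ) : 𝓞 K) : K) = IsCyclotomicExtension.zeta p ℚ K := rfl
  have htors : ∃ t : Additive (𝓞 L)ˣ, D t = 0 ∧ t ≠ 0 ∧ p • t = 0 := by
    refine ⟨Additive.ofMul (unitIncl K L zu), ?_, ?_, ?_⟩
    · have : unitIncl K L zu ∈ (unitD K L σ).ker := by
        rw [hkerD]; exact ⟨_, rfl⟩
      exact this
    · intro h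
      have h1 : unitIncl K L zu = 1 := h
      have h2 : zu = 1 := h29fi_unitIncl_injective K L (by rw [h1, map_one])
      have h4 : IsCyclotomicExtension.zeta p ℚ K = 1 := by
        rw [← hzu, h2]; rfl
      exact hζ.ne_one hp.one_lt h4
    · show Additive.ofMul ((unitIncl K L zu) ^ p) = 0
      rw [← map_pow]
      have : zu ^ p = 1 := by
        apply Units.ext
        exact hζ'p
      rw [this, map_one]
      rfl
  have hcard : Nat.card {t : Additive (𝓞 L)ˣ // D t = 0 ∧ p • t = 0} ≤ p := by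
    refine le_trans ?_ (card_rootsOfUnity (k := p) (R := 𝓞 L))
    refine Nat.card_le_card_of_injective
      (fun t => (⟨Additive.toMul t.1, ?_⟩ : rootsOfUnity p (𝓞 L))) ?_
    · rw [mem_rootsOfUnity]
      exact t.2.2
    · intro a b hab
      apply Subtype.ext
      have := congrArg (fun z : rootsOfUnity p (𝓞 L) => (z : (𝓞 L)ˣ)) hab
      exact this
  have key := h29fi_unit_abs p hp s D N hs hD hN hrank htors hcard
  -- translate
  have e1 : N.range.relIndex D.ker = (unitN K L).range.index := by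
    rw [h29fi_range_toAdditive, h29fi_ker_toAdditive, Subgroup.relIndex_toAddSubgroup, hkerD,
      MonoidHom.range_eq_map (unitIncl K L), ← MonoidHom.map_range,
      Subgroup.relIndex_map_map_of_injective _ _ (h29fi_unitIncl_injective K L),
      Subgroup.relIndex_top_right]
  have e2 : D.range.relIndex N.ker = (unitD K L σ).range.relIndex (unitN K L).ker := by
    rw [h29fi_range_toAdditive, h29fi_ker_toAdditive, Subgroup.relIndex_toAddSubgroup]
    congr 1
    ext u
    rw [MonoidHom.mem_ker, MonoidHom.mem_ker, MonoidHom.comp_apply]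
    constructor
    · intro h
      exact h29fi_unitIncl_injective K L (by rw [h, map_one])
    · intro h
      rw [h, map_one]
  rw [e1, e2] at key
  exact key

end inst

end H29FI
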