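import Fermat.Agent.CFT.FI.Glue
import Fermat.Agent.CFT.FI.UNInst
import Fermat.Agent.CFT.FI.C3
import Fermat.Agent.CFT.FI.CM_helper18
import Fermat.Agent.CFT.FI.INV_helper8
import Fermat.Agent.CFT.FI.C1_helper26
import Fermat.Agent.CFT.FI.C4_helper8

/-!
T-CFT module FI, final assembly (helper29): `H14CFT.FirstInequality p` for every `p`.
Inputs: UN (UNInst), C1 (helper26), C3 (C3 + INV by helper8), C4 (helper8), CM (helper18).
-/

namespace H29FI

/-- **Module FI**: the first inequality of class field theory for cyclic unramified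
extensions of prime degree, in the `H14CFT.FirstInequality` form. -/
theorem h29fi_firstInequality (p : ℕ) : H14CFT.FirstInequality p :=
  h29fi_glue p (h29fi_unitIndexIneq p) (h26c1_normClassesLe p)
    (h29c3_ambiguousBound p h8inv_invariantIdeal) (h8c4_capitulationBound p)
    (fun K L _ _ _ _ _ σ => ⟨H18CR.h18cr_classMaps K L σ⟩)

end H29FI
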