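/-
T-CFT module FI, slice INV (helper15): `H29FI.h15inv_invariantIdeal : H29FI.InvariantIdeal`.
In an everywhere unramified Galois extension `L/K` of number fields, a nonzero Galois-invariant
ideal of `𝓞 L` is the extension of an ideal of `𝓞 K`.
Proof: Noetherian induction; a maximal `Q ⊇ I`, `q = Q ∩ 𝓞 K`; all primes over `q` are conjugate to
`Q`, hence contain `I`; `q 𝓞 L` is their product (`e = 1`), so `q 𝓞 L ∣ I`; divide and recurse.
-/
import Mathlib
import Fermat.Agent.CFT.FI.Defs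

set_option autoImplicit false

namespace H29FI

open NumberField
open scoped Pointwise nonZeroDivisors

section

variable {K L : Type} [Field K] [NumberField K] [Field L] [NumberField L] [Algebra K L]
  [IsGalois K L]

/-- Unramified: all ramification indices are `1`. -/
theorem h15inv_ramificationIdx_eq_one (hun : H14CFT.UnramifiedEverywhere K L)
    (q : Ideal (𝓞 K)) [q.IsMaximal] (hq : q ≠ ⊥) (P : Ideal (𝓞 L)) [P.IsPrime] [P.LiesOver q] :
    P.ramificationIdx (𝓞 K) = 1 := by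
  have hP0 : P ≠ ⊥ := Ideal.ne_bot_of_liesOver_of_ne_bot hq P
  have hcard := Ideal.card_inertia_eq_ramificationIdxIn (G := L ≃ₐ[K] L) q P
  rw [Ideal.ramificationIdxIn_eq_ramificationIdx q P (L ≃ₐ[K] L)] at hcard
  rw [← hcard]
  have hbot : Ideal.inertia (L ≃ₐ[K] L) P = ⊥ := by
    rw [Subgroup.eq_bot_iff_forall]
    intro σ hσ
    exact hun P inferInstance hP0 σ (fun x => hσ x)
  rw [hbot]
  simp

theorem h15inv_map_eq_prod (hun : H14CFT.UnramifiedEverywhere K L)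
    (q : Ideal (𝓞 K)) [q.IsMaximal] (hq : q ≠ ⊥) :
    q.map (algebraMap (𝓞 K) (𝓞 L)) = ∏ P ∈ q.primesOver (𝓞 L), P := by
  rw [Ideal.map_algebraMap_eq_finsetProd_pow hq]
  refine Finset.prod_congr rfl (fun P hP => ?_)
  have hP' : P ∈ q.primesOver (𝓞 L) := by simpa using hP
  have := hP'.1
  have := hP'.2
  rw [h15inv_ramificationIdx_eq_one hun q hq P, pow_one]

theorem h15inv_map_dvd (hun : H14CFT.UnramifiedEverywhere K L)
    (I : Ideal (𝓞 L)) (hinv : ∀ σ : L ≃ₐ[K] L, σ • I = I)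
    (Q : Ideal (𝓞 L)) [Q.IsMaximal] (hQ0 : Q ≠ ⊥) (hIQ : I ≤ Q) :
    (Q.under (𝓞 K)).map (algebraMap (𝓞 K) (𝓞 L)) ∣ I := by
  have : (Q.under (𝓞 K)).IsMaximal := inferInstance
  have hq0 : Q.under (𝓞 K) ≠ ⊥ := Ideal.under_ne_bot (𝓞 K) hQ0
  rw [h15inv_map_eq_prod hun _ hq0]
  apply Finset.prod_primes_dvd
  · intro P hP
    have hP' : P ∈ (Q.under (𝓞 K)).primesOver (𝓞 L) := by simpa using hP
    have := hP'.1
    have := hP'.2
    exact Ideal.prime_of_isPrime (Ideal.ne_bot_of_liesOver_of_ne_bot hq0 P) hP'.1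
  · intro P hP
    have hP' : P ∈ (Q.under (𝓞 K)).primesOver (𝓞 L) := by simpa using hP
    have := hP'.1
    have := hP'.2
    obtain ⟨σ, hσ⟩ := Ideal.exists_smul_eq_of_isGaloisGroup (Q.under (𝓞 K)) Q P (L ≃ₐ[K] L)
    rw [Ideal.dvd_iff_le, ← hσ, ← hinv σ]
    rw [Ideal.pointwise_smul_def, Ideal.pointwise_smul_def]
    exact Ideal.map_mono hIQ

/-- the extension of an ideal of `𝓞 K` is Galois invariant -/
theorem h15inv_smul_map (σ : L ≃ₐ[K] L) (J : Ideal (𝓞 K)) :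
    σ • J.map (algebraMap (𝓞 K) (𝓞 L)) = J.map (algebraMap (𝓞 K) (𝓞 L)) := by
  rw [Ideal.pointwise_smul_def, Ideal.map_map]
  congr 1
  ext x
  simp

theorem h15inv_aux (hun : H14CFT.UnramifiedEverywhere K L) (I : Ideal (𝓞 L)) :
    I ≠ ⊥ → (∀ σ : L ≃ₐ[K] L, σ • I = I) →
      ∃ J : Ideal (𝓞 K), J.map (algebraMap (𝓞 K) (𝓞 L)) = I := by
  induction I using WellFoundedGT.induction with
  | ind I ih =>
    intro hI0 hinv
    by_cases htop : I = ⊤
    · exact ⟨⊤, by rw [Ideal.map_top, htop]⟩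
    obtain ⟨Q, hQmax, hIQ⟩ := Ideal.exists_le_maximal I htop
    have hQ0 : Q ≠ ⊥ := fun h => hI0 (le_bot_iff.mp (h ▸ hIQ))
    have hq0 : Q.under (𝓞 K) ≠ ⊥ := Ideal.under_ne_bot (𝓞 K) hQ0
    set qL : Ideal (𝓞 L) := (Q.under (𝓞 K)).map (algebraMap (𝓞 K) (𝓞 L)) with hqL
    obtain ⟨I', hI'⟩ := h15inv_map_dvd hun I hinv Q hQ0 hIQ
    have hqL0 : qL ≠ ⊥ := Ideal.map_ne_bot_of_ne_bot hq0
    have hqLQ : qL ≤ Q := Ideal.map_comap_le
    have hI'0 : I' ≠ ⊥ := by
      rintro rfl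
      exact hI0 (by rw [hI', Ideal.mul_bot])
    have hI'inv : ∀ σ : L ≃ₐ[K] L, σ • I' = I' := by
      intro σ
      have h1 := hinv σ
      rw [hI', Ideal.pointwise_smul_def, Ideal.map_mul, ← Ideal.pointwise_smul_def,
        ← Ideal.pointwise_smul_def, h15inv_smul_map] at h1
      exact mul_left_cancel₀ hqL0 h1
    have hlt : I < I' := by
      refine lt_of_le_of_ne (hI' ▸ Ideal.mul_le_right) ?_
      intro h
      have h1 : qL * I' = 1 * I' := by rw [one_mul, ← hI', h]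
      have h2 : qL = 1 := mul_right_cancel₀ hI'0 h1
      have h3 : qL = ⊤ := by rw [h2, Ideal.one_eq_top]
      exact hQmax.ne_top (top_le_iff.mp (h3 ▸ hqLQ))
    obtain ⟨J', hJ'⟩ := ih I' hlt hI'0 hI'inv
    exact ⟨Q.under (𝓞 K) * J', by rw [Ideal.map_mul, hJ', hI']⟩

end

/-- **(INV)** in an everywhere unramified Galois extension, a nonzero Galois-invariant ideal of
`𝓞 L` is the extension of an ideal of `𝓞 K`. -/
theorem h15inv_invariantIdeal : InvariantIdeal := by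
  intro K L _ _ _ _ _ _ hun I hI0 hinv
  exact h15inv_aux hun I hI0 hinv

end H29FI
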