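import Mathlib

set_option autoImplicit false

namespace H29FI

open Module

/-- index of `p F` in a free module `Fin n →₀ ℤ`. -/
theorem h29fi_index_free (n p : ℕ) [NeZero p] :
    (nsmulAddMonoidHom p : (Fin n →₀ ℤ) →+ (Fin n →₀ ℤ)).range.index = p ^ n := by
  classical
  -- the reduction map to `Fin n → ZMod p`
  let φ : (Fin n →₀ ℤ) →+ (Fin n → ZMod p) :=
    { toFun := fun x i => ((x i : ℤ) : ZMod p)
      map_zero' := by ext i; simp
      map_add' := by intro x y; ext i; simp }
  have hker : φ.ker = (nsmulAddMonoidHom p : (Fin n →₀ ℤ) →+ (Fin n →₀ ℤ)).range := by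
    ext x
    simp only [AddMonoidHom.mem_ker, AddMonoidHom.mem_range, nsmulAddMonoidHom_apply]
    constructor
    · intro h
      have h' : ∀ i, (p : ℤ) ∣ x i := by
        intro i
        have := congrFun h i
        simpa [φ, ZMod.intCast_zmod_eq_zero_iff_dvd] using this
      choose c hc using h'
      refine ⟨Finsupp.equivFunOnFinite.symm c, ?_⟩
      ext i
      simp [hc i]
    · rintro ⟨y, rfl⟩
      ext i
      simp [φ]
  have hsurj : Function.Surjective φ := by
    intro f
    refine ⟨Finsupp.equivFunOnFinite.symm (fun i => ((f i).val : ℤ)), ?_⟩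
    ext i
    simp [φ]
  rw [← hker, AddSubgroup.index_ker, AddMonoidHom.range_eq_top.mpr hsurj]
  simp [Nat.card_eq_fintype_card, ZMod.card]

theorem h29fi_ker_free (n p : ℕ) [NeZero p] :
    (nsmulAddMonoidHom p : (Fin n →₀ ℤ) →+ (Fin n →₀ ℤ)).ker = ⊥ := by
  ext x
  simp only [AddMonoidHom.mem_ker, nsmulAddMonoidHom_apply, AddSubgroup.mem_bot]
  constructor
  · intro h
    ext i
    have := DFunLike.congr_fun h i
    simpa [NeZero.ne p] using this
  · rintro rfl; simp

section transport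

variable {A B : Type*} [AddCommGroup A] [AddCommGroup B]

theorem h29fi_range_map_equiv (f : A ≃+ B) (p : ℕ) :
    (nsmulAddMonoidHom p : A →+ A).range.map (f : A →+ B) = (nsmulAddMonoidHom p : B →+ B).range := by
  ext y
  simp only [AddSubgroup.mem_map, AddMonoidHom.mem_range, nsmulAddMonoidHom_apply]
  constructor
  · rintro ⟨x, ⟨z, rfl⟩, rfl⟩
    exact ⟨f z, by simp⟩
  · rintro ⟨z, rfl⟩
    exact ⟨p • f.symm z, ⟨f.symm z, rfl⟩, by simp⟩

theorem h29fi_index_range_equiv (f : A ≃+ B) (p : ℕ) :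
    (nsmulAddMonoidHom p : A →+ A).range.index = (nsmulAddMonoidHom p : B →+ B).range.index := by
  rw [← h29fi_range_map_equiv f p, AddSubgroup.index_map_equiv]

theorem h29fi_card_ker_equiv (f : A ≃+ B) (p : ℕ) :
    Nat.card (nsmulAddMonoidHom p : A →+ A).ker = Nat.card (nsmulAddMonoidHom p : B →+ B).ker := by
  refine Nat.card_congr ⟨fun x => ⟨f x.1, ?_⟩, fun y => ⟨f.symm y.1, ?_⟩, ?_, ?_⟩
  · have := x.2
    simp only [AddMonoidHom.mem_ker, nsmulAddMonoidHom_apply] at this ⊢
    rw [← map_nsmul, this, map_zero]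
  · have := y.2
    simp only [AddMonoidHom.mem_ker, nsmulAddMonoidHom_apply] at this ⊢
    rw [← map_nsmul, this, map_zero]
  · intro x; simp
  · intro y; simp

theorem h29fi_range_prod (p : ℕ) :
    (nsmulAddMonoidHom p : (A × B) →+ (A × B)).range =
      ((nsmulAddMonoidHom p : A →+ A).range).prod ((nsmulAddMonoidHom p : B →+ B).range) := by
  ext ⟨a, b⟩
  simp only [AddMonoidHom.mem_range, nsmulAddMonoidHom_apply, AddSubgroup.mem_prod]
  constructor
  · rintro ⟨⟨x, y⟩, h⟩
    simp only [Prod.smul_mk, Prod.mk.injEq] at h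
    exact ⟨⟨x, h.1⟩, ⟨y, h.2⟩⟩
  · rintro ⟨⟨x, hx⟩, ⟨y, hy⟩⟩
    exact ⟨(x, y), by simp [hx, hy]⟩

theorem h29fi_ker_prod (p : ℕ) :
    (nsmulAddMonoidHom p : (A × B) →+ (A × B)).ker =
      ((nsmulAddMonoidHom p : A →+ A).ker).prod ((nsmulAddMonoidHom p : B →+ B).ker) := by
  ext ⟨a, b⟩
  simp [AddMonoidHom.mem_ker, AddSubgroup.mem_prod, Prod.ext_iff]

end transport

/-- **Index of `pA`** in a finitely generated abelian group. -/
theorem h29fi_index_nsmul (A : Type*) [AddCommGroup A] [Module.Finite ℤ A] (p : ℕ) [NeZero p] :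
    (nsmulAddMonoidHom p : A →+ A).range.index =
      p ^ finrank ℤ A * Nat.card (nsmulAddMonoidHom p : A →+ A).ker := by
  classical
  have : AddGroup.FG A := Module.Finite.iff_addGroup_fg.mp inferInstance
  obtain ⟨n, ι, _, q, hq, e, ⟨f⟩⟩ := AddCommGroup.equiv_free_prod_directSum_zmod A
  set T := DirectSum ι (fun i => ZMod (q i ^ e i)) with hT
  have : ∀ i, NeZero (q i ^ e i) := fun i => ⟨pow_ne_zero _ (hq i).ne_zero⟩
  have : Finite T := Finite.of_equiv _ DFinsupp.equivFunOnFintype.symm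
  -- finrank
  have hrank : finrank ℤ A = n := by
    let g : A →ₗ[ℤ] (Fin n →₀ ℤ) := (AddMonoidHom.fst _ _).toIntLinearMap.comp f.toIntLinearEquiv.toLinearMap
    have hg : Function.Surjective g := by
      intro x
      refine ⟨f.symm (x, 0), ?_⟩
      simp [g]
    have h1 := (LinearMap.ker g).finrank_quotient_add_finrank
    have h2 : finrank ℤ (A ⧸ LinearMap.ker g) = n := by
      rw [(g.quotKerEquivOfSurjective hg).finrank_eq]
      simp
    have h3 : finrank ℤ (LinearMap.ker g) = 0 := by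
      rw [Module.finrank_eq_zero_iff_isTorsion]
      intro x
      have hx : (f x.1).1 = 0 := by
        have h0 : g x.1 = 0 := LinearMap.mem_ker.mp x.2
        exact h0
      have hfin : Finite T := inferInstance
      obtain ⟨m, hm, hmT⟩ := (isOfFinAddOrder_of_finite (f x.1).2).exists_nsmul_eq_zero
      refine ⟨⟨(m : ℤ), ?_⟩, ?_⟩
      · rw [mem_nonZeroDivisors_iff_ne_zero]; exact_mod_cast hm.ne'
      · apply Subtype.ext
        apply f.injective
        simp only [Submonoid.mk_smul, Submodule.coe_smul_of_tower, Submodule.coe_zero, map_zero]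
        rw [map_zsmul]
        ext1
        · simp [hx]
        · simpa using hmT
    omega
  rw [h29fi_index_range_equiv f p, h29fi_card_ker_equiv f p, h29fi_range_prod, h29fi_ker_prod,
    AddSubgroup.index_prod, h29fi_index_free, h29fi_ker_free, hrank]
  congr 1
  rw [AddSubgroup.index_range]
  rw [Nat.card_congr (AddSubgroup.prodEquiv _ _).toEquiv, Nat.card_prod]
  simp


theorem h29fi_card_ker_ne_zero (A : Type*) [AddCommGroup A] [Module.Finite ℤ A] (p : ℕ) [NeZero p] :
    Nat.card (nsmulAddMonoidHom p : A →+ A).ker ≠ 0 := by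
  classical
  have : AddGroup.FG A := Module.Finite.iff_addGroup_fg.mp inferInstance
  obtain ⟨n, ι, _, q, hq, e, ⟨f⟩⟩ := AddCommGroup.equiv_free_prod_directSum_zmod A
  set T := DirectSum ι (fun i => ZMod (q i ^ e i)) with hT
  have : ∀ i, NeZero (q i ^ e i) := fun i => ⟨pow_ne_zero _ (hq i).ne_zero⟩
  have : Finite T := Finite.of_equiv _ DFinsupp.equivFunOnFintype.symm
  rw [h29fi_card_ker_equiv f p, h29fi_ker_prod, h29fi_ker_free,
    Nat.card_congr (AddSubgroup.prodEquiv _ _).toEquiv, Nat.card_prod]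
  simp only [AddSubgroup.card_bot, one_mul, ne_eq]
  exact Nat.card_pos.ne'

theorem h29fi_index_nsmul_ne_zero (A : Type*) [AddCommGroup A] [Module.Finite ℤ A] (p : ℕ)
    [NeZero p] : (nsmulAddMonoidHom p : A →+ A).range.index ≠ 0 := by
  rw [h29fi_index_nsmul]
  exact mul_ne_zero (pow_ne_zero _ (NeZero.ne p)) (h29fi_card_ker_ne_zero A p)

open Polynomial in
/-- `(X - 1)^(p-1) ≡ Φ_p = ∑_{i<p} X^i` modulo `p`. -/
theorem h29fi_poly_identity (p : ℕ) (hp : p.Prime) :
    ∃ w : ℤ[X], (X - 1 : ℤ[X]) ^ (p - 1) = (∑ i ∈ Finset.range p, X ^ i) + C (p : ℤ) * w := by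
  have : Fact p.Prime := ⟨hp⟩
  set f : ℤ[X] := (X - 1 : ℤ[X]) ^ (p - 1) - ∑ i ∈ Finset.range p, X ^ i with hf
  have hmap : f.map (Int.castRingHom (ZMod p)) = 0 := by
    have h1 : ((X - 1 : (ZMod p)[X]) ^ (p - 1) - ∑ i ∈ Finset.range p, X ^ i) * (X - 1) = 0 := by
      rw [sub_mul, ← pow_succ, Nat.sub_add_cancel hp.one_le, geom_sum_mul, sub_pow_char, one_pow,
        sub_self]
    have h2 : (X - 1 : (ZMod p)[X]) ≠ 0 := by
      have := Polynomial.X_sub_C_ne_zero (1 : ZMod p)
      simpa using this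
    have h3 := (mul_eq_zero.mp h1).resolve_right h2
    simpa [hf, Polynomial.map_sub, Polynomial.map_pow, Polynomial.map_sum] using h3
  have hdvd : C (p : ℤ) ∣ f := by
    rw [Polynomial.C_dvd_iff_dvd_coeff]
    intro i
    have := congrArg (fun q => q.coeff i) hmap
    simp only [coeff_map, eq_intCast, coeff_zero] at this
    exact (ZMod.intCast_zmod_eq_zero_iff_dvd _ _).mp this
  obtain ⟨w, hw⟩ := hdvd
  exact ⟨w, by rw [← hw, hf]; ring⟩

open Polynomial in
/-- `Φ_p = p + (X - 1) u`. -/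
theorem h29fi_poly_identity' (p : ℕ) :
    ∃ u : ℤ[X], (∑ i ∈ Finset.range p, X ^ i : ℤ[X]) = C (p : ℤ) + (X - 1) * u := by
  have h : (X - C (1 : ℤ)) ∣ ((∑ i ∈ Finset.range p, X ^ i : ℤ[X]) - C (p : ℤ)) := by
    rw [Polynomial.dvd_iff_isRoot]
    simp [Polynomial.eval_finsetSum]
  obtain ⟨u, hu⟩ := h
  refine ⟨u, ?_⟩
  have : (X - C (1 : ℤ)) = (X - 1 : ℤ[X]) := by simp
  rw [this] at hu
  rw [← hu]; ring

/-- a subgroup containing `pG` of finite index has `p`-power index -/
theorem h29fi_index_pow {G : Type*} [AddCommGroup G] (H : AddSubgroup G) (p : ℕ) (hp : p.Prime)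
    (hH : ∀ x : G, p • x ∈ H) (hfin : H.index ≠ 0) : ∃ k : ℕ, H.index = p ^ k := by
  have : Fact p.Prime := ⟨hp⟩
  have : H.FiniteIndex := ⟨hfin⟩
  have : Finite (G ⧸ H) := inferInstance
  have hP : IsPGroup p (Multiplicative (G ⧸ H)) := by
    intro g
    refine ⟨1, ?_⟩
    rw [pow_one]
    obtain ⟨x, hx⟩ := QuotientAddGroup.mk_surjective (Multiplicative.toAdd g)
    have h1 : p • (Multiplicative.toAdd g) = 0 := by
      rw [← hx, ← QuotientAddGroup.mk_nsmul]
      exact (QuotientAddGroup.eq_zero_iff _).mpr (hH x)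
    exact congrArg Multiplicative.ofAdd h1
  obtain ⟨k, hk⟩ := (IsPGroup.iff_card).mp hP
  exact ⟨k, by rw [AddSubgroup.index_eq_card, ← hk]; rfl⟩



open Module

section rank

variable {A : Type*} [AddCommGroup A] [Module.Finite ℤ A]

/-- rank-nullity over `ℤ` for endomorphisms given as additive maps -/
theorem h29fi_finrank_ker_add_range {B : Type*} [AddCommGroup B] (f : A →+ B) :
    finrank ℤ f.ker + finrank ℤ f.range = finrank ℤ A := by
  let fl : A →ₗ[ℤ] B := f.toIntLinearMap
  have h1 := (LinearMap.ker fl).finrank_quotient_add_finrank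
  have h2 : finrank ℤ (A ⧸ LinearMap.ker fl) = finrank ℤ (LinearMap.range fl) :=
    (fl.quotKerEquivRange).finrank_eq
  have h3 : finrank ℤ (LinearMap.ker fl) = finrank ℤ f.ker := by
    refine LinearEquiv.finrank_eq (AddEquiv.toIntLinearEquiv
      { toFun := fun x => ⟨x.1, x.2⟩, invFun := fun x => ⟨x.1, x.2⟩, left_inv := fun _ => rfl,
        right_inv := fun _ => rfl, map_add' := fun _ _ => rfl })
  have h4 : finrank ℤ (LinearMap.range fl) = finrank ℤ f.range := by
    refine LinearEquiv.finrank_eq (AddEquiv.toIntLinearEquiv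
      { toFun := fun x => ⟨x.1, x.2⟩, invFun := fun x => ⟨x.1, x.2⟩, left_inv := fun _ => rfl,
        right_inv := fun _ => rfl, map_add' := fun _ _ => rfl })
  omega

/-- finiteness of subgroups -/
theorem h29fi_finite_addSubgroup (S : AddSubgroup A) : Module.Finite ℤ S := by
  have : IsNoetherian ℤ A := inferInstance
  have h : Module.Finite ℤ (AddSubgroup.toIntSubmodule S) := inferInstance
  exact Module.Finite.equiv (AddEquiv.toIntLinearEquiv
      { toFun := fun x => ⟨x.1, x.2⟩, invFun := fun x => ⟨x.1, x.2⟩, left_inv := fun _ => rfl,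
        right_inv := fun _ => rfl, map_add' := fun _ _ => rfl } :
        (AddSubgroup.toIntSubmodule S) ≃ₗ[ℤ] S)

theorem h29fi_finrank_mono {S T : AddSubgroup A} (h : S ≤ T) : finrank ℤ S ≤ finrank ℤ T := by
  have := Submodule.finrank_mono (R := ℤ) (M := A) (s := AddSubgroup.toIntSubmodule S)
    (t := AddSubgroup.toIntSubmodule T) (by simpa using h)
  exact this

/-- a subgroup `S ≤ T` with `p T ≤ S` has the same rank as `T`. -/
theorem h29fi_finrank_eq_of_nsmul_le {S T : AddSubgroup A} (p : ℕ) [NeZero p] (h : S ≤ T)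
    (hp : ∀ x ∈ T, p • x ∈ S) : finrank ℤ S = finrank ℤ T := by
  apply le_antisymm (h29fi_finrank_mono h)
  -- multiplication by p on T
  let g : T →+ A := (nsmulAddMonoidHom p : A →+ A).comp T.subtype
  haveI := h29fi_finite_addSubgroup T
  have hg := h29fi_finrank_ker_add_range g
  have hk : finrank ℤ g.ker = 0 := by
    haveI := h29fi_finite_addSubgroup g.ker
    rw [Module.finrank_eq_zero_iff_isTorsion]
    intro x
    refine ⟨⟨(p : ℤ), ?_⟩, ?_⟩
    · rw [mem_nonZeroDivisors_iff_ne_zero]; exact_mod_cast NeZero.ne p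
    · have hx : g x.1 = 0 := x.2
      apply Subtype.ext
      apply Subtype.ext
      simpa [g] using hx
  have hr : g.range ≤ S := by
    rintro y ⟨x, rfl⟩
    exact hp x.1 x.2
  have := h29fi_finrank_mono hr
  omega

end rank


end H29FI
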