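import Fermat.Agent.CFT.FI.UNAbs

/-!
# T-CFT / FI / UN (helper29): the abstract unit index inequality

`h29fi_core`: for a finitely generated abelian group `A` with commuting endomorphisms `D`
(think `s - 1`) and `N` (think `1 + s + ... + s^(p-1)`), under a rank hypothesis,
`p * [ker D : im N] ≤ [ker N : im D]`.
-/

set_option autoImplicit false

namespace H29FI

open Module

section core

variable {A : Type*} [AddCommGroup A]

/-- the subgroups `R k = D^k M` of a group `M` with endomorphism `D`. -/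
def h29fi_R {M : Type*} [AddCommGroup M] (D : M →+ M) : ℕ → AddSubgroup M
  | 0 => ⊤
  | k + 1 => (h29fi_R D k).map D

theorem h29fi_R_index_dvd {M : Type*} [AddCommGroup M] (D : M →+ M) (k : ℕ) :
    (h29fi_R D k).index ∣ D.range.index ^ k := by
  induction k with
  | zero => simp [h29fi_R]
  | succ k ih =>
    have h1 : (h29fi_R D (k + 1)).index =
        (h29fi_R D k ⊔ D.ker).index * D.range.index := by
      simp only [h29fi_R]
      exact AddSubgroup.index_map _ D
    rw [h1, pow_succ]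
    exact mul_dvd_mul ((AddSubgroup.index_dvd_of_le le_sup_left).trans ih) dvd_rfl

theorem h29fi_R_mem {M : Type*} [AddCommGroup M] (D : M →+ M) (k : ℕ) (x : M)
    (hx : x ∈ h29fi_R D k) : ∃ m : M, x = D^[k] m := by
  induction k generalizing x with
  | zero => exact ⟨x, rfl⟩
  | succ k ih =>
    simp only [h29fi_R, AddSubgroup.mem_map] at hx
    obtain ⟨y, hy, rfl⟩ := hx
    obtain ⟨m, rfl⟩ := ih y hy
    exact ⟨m, by rw [Function.iterate_succ_apply']⟩

theorem h29fi_arith (p a rA rM k : ℕ) (hp2 : 2 ≤ p) (hrank : rA + 1 = p * (a + 1))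
    (hrk : rM + a = rA) (h4 : rM + 1 ≤ k * (p - 1)) : a + 2 ≤ k := by
  obtain ⟨q, rfl⟩ : ∃ q, p = q + 1 := ⟨p - 1, by omega⟩
  simp only [Nat.add_sub_cancel] at h4
  by_contra hcon
  rw [not_le] at hcon
  have hk' : k ≤ a + 1 := by omega
  have h6 : k * q ≤ (a + 1) * q := Nat.mul_le_mul_right _ hk'
  have h7 : rM = (a + 1) * q := by
    have : rA + 1 = q * (a + 1) + (a + 1) := by rw [hrank]; ring
    have : rM = q * (a + 1) := by omega
    rw [this]; ring
  omega

theorem h29fi_core [Module.Finite ℤ A] (p : ℕ) (hp : p.Prime) (D N : A →+ A)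
    (hDN : ∀ x, D (N x) = 0) (hND : ∀ x, N (D x) = 0)
    (hNX : ∀ x, D x = 0 → N x = p • x)
    (hW : ∀ x, N x = 0 → ∃ y, N y = 0 ∧ (D^[p-1]) x = p • y)
    (hU : ∀ x, N x = 0 → ∃ y, N y = 0 ∧ p • x = D y)
    (hrank : finrank ℤ A + 1 = p * (finrank ℤ D.ker + 1))
    (htors : ∃ t : A, D t = 0 ∧ t ≠ 0 ∧ p • t = 0)
    (hcard : Nat.card {t : A // D t = 0 ∧ p • t = 0} ≤ p) :
    N.range.relIndex D.ker ≠ 0 ∧ p * N.range.relIndex D.ker ≤ D.range.relIndex N.ker := by
  classical
  have hp0 : NeZero p := ⟨hp.ne_zero⟩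
  have hpF : Fact p.Prime := ⟨hp⟩
  set X := D.ker with hX
  set M := N.ker with hM
  have hXfin : Module.Finite ℤ X := h29fi_finite_addSubgroup X
  have hMfin : Module.Finite ℤ M := h29fi_finite_addSubgroup M
  have hNrX : N.range ≤ X := by
    rintro y ⟨x, rfl⟩
    exact hDN x
  have hDrM : D.range ≤ M := by
    rintro y ⟨x, rfl⟩
    exact hND x
  -- (A) `pA ≤ X ⊔ M`
  have hpA : (nsmulAddMonoidHom p : A →+ A).range ≤ X ⊔ M := by
    rintro y ⟨x, rfl⟩
    have h1 : (nsmulAddMonoidHom p : A →+ A) x = N x + (p • x - N x) := by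
      simp
    rw [h1]
    refine AddSubgroup.add_mem_sup (hDN x) ?_
    show N (p • x - N x) = 0
    rw [map_sub, map_nsmul, hNX (N x) (hDN x), sub_self]
  have hc : (X ⊔ M).index ≠ 0 := by
    intro h
    have := AddSubgroup.index_dvd_of_le hpA
    rw [h] at this
    exact h29fi_index_nsmul_ne_zero A p (Nat.eq_zero_of_zero_dvd this)
  -- (B)
  have hB1 : (X.map N).relIndex N.range = (X ⊔ M).index := by
    rw [AddMonoidHom.range_eq_map, AddSubgroup.relIndex_map_map, top_sup_eq,
      AddSubgroup.relIndex_top_right]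
  have hB2 : (X.map N).relIndex N.range * N.range.relIndex X = (X.map N).relIndex X :=
    AddSubgroup.relIndex_mul_relIndex _ _ _ (AddSubgroup.map_le_range N X) hNrX
  have hB3 : (X.map N).relIndex X = (nsmulAddMonoidHom p : X →+ X).range.index := by
    rw [AddSubgroup.relIndex]
    congr 1
    ext x
    simp only [AddSubgroup.mem_addSubgroupOf, AddSubgroup.mem_map, AddMonoidHom.mem_range,
      nsmulAddMonoidHom_apply]
    constructor
    · rintro ⟨y, hy, hyx⟩
      refine ⟨⟨y, hy⟩, Subtype.ext ?_⟩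
      rw [← hyx, hNX y hy]
      rfl
    · rintro ⟨y, rfl⟩
      exact ⟨y.1, y.2, by rw [hNX y.1 y.2]; rfl⟩
  -- (C)
  have hC1 : (M.map D).relIndex D.range = (X ⊔ M).index := by
    rw [AddMonoidHom.range_eq_map, AddSubgroup.relIndex_map_map, top_sup_eq,
      AddSubgroup.relIndex_top_right, sup_comm]
  have hC2 : (M.map D).relIndex D.range * D.range.relIndex M = (M.map D).relIndex M :=
    AddSubgroup.relIndex_mul_relIndex _ _ _ (AddSubgroup.map_le_range D M) hDrM
  let DM : M →+ M := (D.comp M.subtype).codRestrict M (fun m => hDrM ⟨m.1, rfl⟩)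
  have hDMcoe : ∀ m : M, (DM m : A) = D m.1 := fun _ => rfl
  have hC3 : (M.map D).relIndex M = DM.range.index := by
    rw [AddSubgroup.relIndex]
    congr 1
    ext x
    simp only [AddSubgroup.mem_addSubgroupOf, AddSubgroup.mem_map, AddMonoidHom.mem_range]
    constructor
    · rintro ⟨y, hy, hyx⟩
      exact ⟨⟨y, hy⟩, Subtype.ext hyx⟩
    · rintro ⟨y, rfl⟩
      exact ⟨y.1, y.2, rfl⟩
  -- (D) the chain
  have hiter : ∀ (k : ℕ) (m : M), ((DM^[k] m : M) : A) = D^[k] m.1 := by
    intro k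
    induction k with
    | zero => intro m; rfl
    | succ k ih =>
      intro m
      rw [Function.iterate_succ_apply', Function.iterate_succ_apply', hDMcoe, ih]
  have hRp : h29fi_R DM (p - 1) ≤ (nsmulAddMonoidHom p : M →+ M).range := by
    intro x hx
    obtain ⟨m, rfl⟩ := h29fi_R_mem DM (p - 1) x hx
    obtain ⟨y, hy, hyx⟩ := hW m.1 m.2
    refine ⟨⟨y, hy⟩, Subtype.ext ?_⟩
    rw [hiter, hyx]
    rfl
  have hpM_ne : (nsmulAddMonoidHom p : M →+ M).range.index ≠ 0 :=
    h29fi_index_nsmul_ne_zero M p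
  have hpM_le : (nsmulAddMonoidHom p : M →+ M).range ≤ DM.range := by
    rintro x ⟨m, rfl⟩
    obtain ⟨y, hy, hyx⟩ := hU m.1 m.2
    refine ⟨⟨y, hy⟩, Subtype.ext ?_⟩
    rw [hDMcoe]
    show D y = ((p • m : M) : A)
    rw [← hyx]
    rfl
  have hd1_ne : DM.range.index ≠ 0 := by
    intro h
    have := AddSubgroup.index_dvd_of_le hpM_le
    rw [h] at this
    exact hpM_ne (Nat.eq_zero_of_zero_dvd this)
  have hdvd : (nsmulAddMonoidHom p : M →+ M).range.index ∣ DM.range.index ^ (p - 1) :=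
    (AddSubgroup.index_dvd_of_le hRp).trans (h29fi_R_index_dvd DM (p - 1))
  -- (E) `d₁` is a power of `p`
  obtain ⟨k, hk⟩ := h29fi_index_pow DM.range p hp
    (fun x => hpM_le ⟨x, rfl⟩) hd1_ne
  -- (F) the `p`-torsion of `M`
  obtain ⟨t, ht1, ht2, ht3⟩ := htors
  have htM : N t = 0 := by rw [hNX t ht1, ht3]
  have hMp : p ∣ Nat.card (nsmulAddMonoidHom p : M →+ M).ker := by
    have hne := h29fi_card_ker_ne_zero M p
    have : Finite (nsmulAddMonoidHom p : M →+ M).ker := (Nat.card_ne_zero.mp hne).2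
    let t' : (nsmulAddMonoidHom p : M →+ M).ker := ⟨⟨t, htM⟩, by
      rw [AddMonoidHom.mem_ker]
      exact Subtype.ext (by simpa using ht3)⟩
    have ht' : addOrderOf t' = p := by
      apply addOrderOf_eq_prime
      · apply Subtype.ext
        apply Subtype.ext
        simpa using ht3
      · intro h
        apply ht2
        have := congrArg (fun z : (nsmulAddMonoidHom p : M →+ M).ker => ((z : M) : A)) h
        simpa [t'] using this
    have h := addOrderOf_dvd_natCard t'
    rwa [ht'] at h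
  have hS3M := h29fi_index_nsmul M p
  -- (G) ranks
  have hrk : finrank ℤ M + finrank ℤ X = finrank ℤ A := by
    have h1 : finrank ℤ M + finrank ℤ N.range = finrank ℤ A := h29fi_finrank_ker_add_range N
    have h2 : finrank ℤ N.range = finrank ℤ X := by
      apply h29fi_finrank_eq_of_nsmul_le p hNrX
      intro x hx
      exact ⟨x, hNX x hx⟩
    omega
  -- (H) the `p`-torsion of `X`
  have hS3X := h29fi_index_nsmul X p
  have hXp : Nat.card (nsmulAddMonoidHom p : X →+ X).ker ≤ p := by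
    refine le_trans (le_of_eq ?_) hcard
    refine Nat.card_congr ⟨fun x => ⟨x.1.1, x.1.2, ?_⟩, fun y => ⟨⟨y.1, y.2.1⟩, ?_⟩, ?_, ?_⟩
    · have h := x.2
      rw [AddMonoidHom.mem_ker, nsmulAddMonoidHom_apply] at h
      have h' : ((p • x.1 : X) : A) = 0 := by rw [h]; rfl
      rw [AddSubgroup.coe_nsmul] at h'
      exact h'
    · rw [AddMonoidHom.mem_ker]
      exact Subtype.ext (by simpa using y.2.2)
    · intro x; rfl
    · intro y; rfl
  -- (I) numerics
  set a := finrank ℤ X with ha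
  set c := (X ⊔ M).index with hcdef
  set iN := N.range.relIndex X with hiN
  set iD := D.range.relIndex M with hiD
  have e1 : c * iN = p ^ a * Nat.card (nsmulAddMonoidHom p : X →+ X).ker := by
    rw [← hS3X, ← hB3, ← hB2, hB1]
  have e2 : c * iD = p ^ k := by
    rw [← hk, ← hC3, ← hC2, hC1]
  have hiN_ne : iN ≠ 0 := by
    intro h
    rw [h, mul_zero] at e1
    have := h29fi_card_ker_ne_zero X p
    have hpa : p ^ a ≠ 0 := pow_ne_zero _ hp.ne_zero
    exact (mul_ne_zero hpa this) e1.symm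
  refine ⟨hiN_ne, ?_⟩
  -- `p^(rk M + 1) ≤ p^(k (p-1))`
  have h3 : p ^ (finrank ℤ M + 1) ∣ p ^ (k * (p - 1)) := by
    have : p ^ (finrank ℤ M + 1) ∣ (nsmulAddMonoidHom p : M →+ M).range.index := by
      rw [hS3M, pow_succ]
      exact mul_dvd_mul dvd_rfl hMp
    refine this.trans ?_
    rw [pow_mul, ← hk]
    exact hdvd
  have h4 : finrank ℤ M + 1 ≤ k * (p - 1) := by
    by_contra hcon
    rw [not_le] at hcon
    have := Nat.le_of_dvd (pow_pos hp.pos _) h3
    exact absurd (Nat.pow_lt_pow_right hp.one_lt hcon) (not_lt.mpr this)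
  have hp2 : 2 ≤ p := hp.two_le
  have h5 : a + 2 ≤ k := h29fi_arith p a (finrank ℤ A) (finrank ℤ M) k hp2 hrank hrk h4
  -- conclude
  have h8 : c * (p * iN) ≤ c * iD := by
    rw [e2]
    calc c * (p * iN) = p * (c * iN) := by ring
      _ = p * (p ^ a * Nat.card (nsmulAddMonoidHom p : X →+ X).ker) := by rw [e1]
      _ ≤ p * (p ^ a * p) := by gcongr
      _ = p ^ (a + 2) := by ring
      _ ≤ p ^ k := Nat.pow_le_pow_right hp.pos h5
  exact Nat.le_of_mul_le_mul_left h8 (Nat.pos_of_ne_zero hc)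

end core

end H29FI
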